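import Mathlib
import Fermat.Agent.S34.Modular.KroneckerChart
import Fermat.Agent.S34.HauptU.Plug
import Fermat.Agent.Lib.Frobenius

/-!
# PROGRAM U, chart at infinity (eps-route): the Kronecker congruence `hK` at the chart of `1/j`

`hK` of `ChartInfAlt.isNodalChart_inv` / `Modular.ChartInfE.hinf_of_modEq` at the level-`M`
coordinate `u'⁻¹`, where `u'` has rational `q`-expansion (`u' = j`): for every `r` in the chart
ring of `u'⁻¹` the reduction of `r(q^ℓ)` is an `ℓ`-th power of the reduction of a chart element.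

* `coeffMap_coe_inv` : the coefficientwise Galois action fixes `u'⁻¹`;
* `hK_redM_inv` : any level-raising map `α` and expansion `σ` with `σ (α x) = x`;
* `hK_inv` : the plug-in names `α = TwoPrimesRank.alphaHom M ℓ E`,
  `σ = HauptU.Plug.sigmaHom (M * ℓ) E`.

No Frobenius element appears in the statements (it is chosen by
`Lib.Frobenius.exists_isFrobeniusAt`).
-/

set_option autoImplicit false
set_option linter.unusedSectionVars false
set_option linter.style.haveILetI false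
set_option synthInstance.maxHeartbeats 400000

open ModularCurve

noncomputable section

namespace Fermat.Agent.S34.ChartInfAlt

open Fermat.Agent.S30 Fermat.Agent.S34.TwoPrimesGauss Fermat.Agent.S18.K1Defs
open Fermat.Agent.S34.TwoPrimesRank Fermat.Agent.S34.HauptU.Plug

local notation "Qb" => AlgebraicClosure ℚ

/-- The coefficientwise Galois action fixes the inverse of an element with rational
`q`-expansion. -/
theorem coeffMap_coe_inv (N : ℕ) (E : IntermediateField ℚ Qb) (τ : E ≃ₐ[ℚ] E) (u' : LE N E)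
    (x₀ : LaurentSeries ℚ) (hx₀ : (u' : LaurentSeries E) = coeffEmb E x₀) :
    coeffMap (τ : E →+* E) ((u'⁻¹ : LE N E) : LaurentSeries E)
      = ((u'⁻¹ : LE N E) : LaurentSeries E) := by
  have h1 : ((u'⁻¹ : LE N E) : LaurentSeries E) = (coeffEmb E x₀)⁻¹ := by
    rw [← hx₀]; rfl
  rw [h1, map_inv₀, coeffMap_coeffEmb]

section Main

variable (A : ValuationSubring Qb) (E : IntermediateField ℚ Qb) [Normal ℚ E]
  [IsDiscreteValuationRing (OE A E)]

set_option maxHeartbeats 1600000 in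
/-- **`hK` at the chart of `u'⁻¹`**, `u'` a level-`M` coordinate with rational `q`-expansion,
for any level-raising map `α : LE M E →+* L` and expansion `σ` with `σ (α x) = x`. -/
theorem hK_redM_inv {L : Type*} [Field L] [Algebra (OE A E) L]
    (ℓ : ℕ) [NeZero ℓ] (hℓ : ℓ.Prime) (hA : A.LiesOverPrime ℓ)
    (M : ℕ) [NeZero M] [Algebra (OE A E) (LE M E)] [IsScalarTower (OE A E) E (LE M E)]
    (ϖ : OE A E) (hϖ : Irreducible ϖ) (α : LE M E →+* L)
    (hαO : ∀ r : OE A E, α (algebraMap (OE A E) (LE M E) r) = algebraMap (OE A E) L r)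
    (σ : L →+* LaurentSeries E)
    (hσO : ∀ r : OE A E, σ (algebraMap (OE A E) L r) = HahnSeries.C (algebraMap (OE A E) E r))
    (hσfrac : ∀ x : L, σ x ∈ GaussDVR.fracField (OE A E) E)
    (u' : LE M E) (X : LaurentSeries (OE A E))
    (hσx : σ (α u'⁻¹) = GaussDVR.iota (OE A E) E X)
    (hσα : ∀ x : LE M E, σ (α x) = (x : LaurentSeries E))
    (x₀ : LaurentSeries ℚ) (hx₀ : (u' : LaurentSeries E) = coeffEmb E x₀) :
    ∀ r : Chart (OE A E) u'⁻¹, ∃ s : Chart (OE A E) u'⁻¹,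
      qExpand (IsLocalRing.ResidueField (OE A E)) ℓ
          (redM ϖ hϖ α hαO σ hσO hσfrac u'⁻¹ X hσx r)
        = redM ϖ hϖ α hαO σ hσO hσfrac u'⁻¹ X hσx s ^ ℓ := by
  have hex := Fermat.Agent.Lib.Frobenius.exists_isFrobeniusAt A hℓ hA
  obtain ⟨φ, hφ⟩ := hex
  exact Fermat.Agent.S34.Modular.KroneckerChart.hK_redM A E ℓ hℓ hA hφ M ϖ hϖ α hαO σ hσO hσfrac
    u'⁻¹ X hσx hσα (fun τ => coeffMap_coe_inv M E τ u' x₀ hx₀)

set_option maxHeartbeats 1600000 in
/-- **`hK` at the chart of `u'⁻¹` in the plug-in names** (`α = TwoPrimesRank.alphaHom M ℓ E`,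
`σ = HauptU.Plug.sigmaHom (M * ℓ) E`), `u'` a level-`M` coordinate with rational `q`-expansion
(`u' = jE M E`, `x₀ = jq`): literally the hypothesis `hK` of
`Modular.ChartInfE.hinf_of_modEq` / `ChartInfAlt.isNodalChart_inv`. -/
theorem hK_inv (ℓ : ℕ) [NeZero ℓ] (hℓ : ℓ.Prime) (hA : A.LiesOverPrime ℓ)
    (M : ℕ) [NeZero M] [Algebra (OE A E) (LE M E)] [IsScalarTower (OE A E) E (LE M E)]
    [Algebra (OE A E) (LE (M * ℓ) E)] [IsScalarTower (OE A E) E (LE (M * ℓ) E)]
    (ϖ : OE A E) (hϖ : Irreducible ϖ)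
    (hαO : ∀ r : OE A E, alphaHom M ℓ E (algebraMap (OE A E) (LE M E) r)
      = algebraMap (OE A E) (LE (M * ℓ) E) r)
    (hσO : ∀ r : OE A E, sigmaHom (M * ℓ) E (algebraMap (OE A E) (LE (M * ℓ) E) r)
      = HahnSeries.C (algebraMap (OE A E) E r))
    (hσfrac : ∀ x : LE (M * ℓ) E, sigmaHom (M * ℓ) E x ∈ GaussDVR.fracField (OE A E) E)
    (u' : LE M E) (X : LaurentSeries (OE A E))
    (hσx : sigmaHom (M * ℓ) E (alphaHom M ℓ E u'⁻¹) = GaussDVR.iota (OE A E) E X)
    (x₀ : LaurentSeries ℚ) (hx₀ : (u' : LaurentSeries E) = coeffEmb E x₀) :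
    ∀ r : Chart (OE A E) u'⁻¹, ∃ s : Chart (OE A E) u'⁻¹,
      qExpand (IsLocalRing.ResidueField (OE A E)) ℓ
          (redM ϖ hϖ (alphaHom M ℓ E) hαO (sigmaHom (M * ℓ) E) hσO hσfrac u'⁻¹ X hσx r)
        = redM ϖ hϖ (alphaHom M ℓ E) hαO (sigmaHom (M * ℓ) E) hσO hσfrac u'⁻¹ X hσx s ^ ℓ :=
  hK_redM_inv A E ℓ hℓ hA M ϖ hϖ (alphaHom M ℓ E) hαO (sigmaHom (M * ℓ) E) hσO hσfrac u' X hσx
    (fun x => by
      rw [sigmaHom_apply]
      exact coe_heckeAlphaBar M ℓ x) x₀ hx₀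

end Main

end Fermat.Agent.S34.ChartInfAlt
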