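import Mathlib
import Fermat.Agent.S34.FibreNodal

/-!
# PROGRAM U, chart at infinity (Alt route): the two-evaluation fibre lemma

Variant of `S34/Fibre.lean` (`Fibre.Data`) in which the Atkin–Lehner involution of the chart
ring `C` is **not** available (the chart `1/j` of level `ℓM` is not `W`-stable).  Instead of
`W : C ≃+* C` we are given the two reduction maps `ρ₁ ρ₂ : C →+* T` (reduction of the
`q`-expansion at `∞` and at `0`), the reduction map `ρ₀ : R →+* T` of the level-`M` ring `R`,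
and for every `a : R` an element `b : C` with `ρ₁ b = ρ₂ a`, `ρ₂ b = ρ₁ a` (`back`; on the chart
zero `b = W a`, on the chart at infinity `b = ε ^ D * W a` with `ε ≡ 1`).

`Data2.nodal` : all fields of the nodal contract for the pair `ker ρ₁`, `ker ρ₂`.
-/

set_option autoImplicit false

noncomputable section

namespace Fermat.Agent.S34.ChartInfAlt

open Fermat.Agent.S34

variable {R C T : Type*} [CommRing R] [CommRing C] [Algebra R C] [CommRing T]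

/-- The two-evaluation fibre datum. -/
structure Data2 (π : R) (ρ₀ : R →+* T) (ρ₁ ρ₂ : C →+* T) : Prop where
  /-- `ρ₁` extends `ρ₀`. -/
  comp₁ : ∀ a : R, ρ₁ (algebraMap R C a) = ρ₀ a
  /-- the kernel of `ρ₀` is `(π)` ... -/
  ker₀ : ∀ a : R, ρ₀ a = 0 → π ∣ a
  pi₀ : ρ₀ π = 0
  pi₂ : ρ₂ (algebraMap R C π) = 0
  /-- `C/π` is reduced with the two components `ker ρ₁`, `ker ρ₂`. -/
  inf : ∀ c : C, ρ₁ c = 0 → ρ₂ c = 0 → algebraMap R C π ∣ c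
  /-- both reductions of `C` take their values in the reduction of `R`. -/
  onto₁ : ∀ c : C, ∃ a : R, ρ₁ c = ρ₀ a
  onto₂ : ∀ c : C, ∃ a : R, ρ₂ c = ρ₀ a
  /-- the substitute for the involution. -/
  back : ∀ a : R, ∃ b : C, ρ₁ b = ρ₂ (algebraMap R C a) ∧ ρ₂ b = ρ₀ a

namespace Data2

variable {π : R} {ρ₀ : R →+* T} {ρ₁ ρ₂ : C →+* T}

/-- The injection `R/π → T` induced by `ρ₀`. -/
def rbar (h : Data2 π ρ₀ ρ₁ ρ₂) : R ⧸ Ideal.span {π} →+* T :=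
  Ideal.Quotient.lift _ ρ₀ (by
    intro a ha
    obtain ⟨b, rfl⟩ := Ideal.mem_span_singleton'.mp ha
    rw [map_mul, h.pi₀, mul_zero])

theorem rbar_mk (h : Data2 π ρ₀ ρ₁ ρ₂) (a : R) :
    h.rbar (Ideal.Quotient.mk _ a) = ρ₀ a := rfl

theorem rbar_injective (h : Data2 π ρ₀ ρ₁ ρ₂) : Function.Injective h.rbar := by
  rw [injective_iff_map_eq_zero]
  intro x hx
  obtain ⟨a, rfl⟩ := Ideal.Quotient.mk_surjective x
  rw [rbar_mk] at hx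
  rw [Ideal.Quotient.eq_zero_iff_mem]
  exact Ideal.mem_span_singleton.mpr (h.ker₀ a hx)

/-- A ring hom `C → T` with values in the image of `R/π` factors through `R/π`. -/
def evOf (h : Data2 π ρ₀ ρ₁ ρ₂) (ρ : C →+* T) (hon : ∀ c : C, ∃ a : R, ρ c = ρ₀ a) :
    C →+* R ⧸ Ideal.span {π} where
  toFun c := Ideal.Quotient.mk _ (Classical.choose (hon c))
  map_one' := h.rbar_injective (by
    rw [rbar_mk, ← Classical.choose_spec (hon 1), map_one, map_one])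
  map_mul' x y := h.rbar_injective (by
    rw [rbar_mk, ← Classical.choose_spec (hon (x * y)), map_mul, map_mul, rbar_mk, rbar_mk,
      ← Classical.choose_spec (hon x), ← Classical.choose_spec (hon y)])
  map_zero' := h.rbar_injective (by
    rw [rbar_mk, ← Classical.choose_spec (hon 0), map_zero, map_zero])
  map_add' x y := h.rbar_injective (by
    rw [rbar_mk, ← Classical.choose_spec (hon (x + y)), map_add, map_add, rbar_mk, rbar_mk,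
      ← Classical.choose_spec (hon x), ← Classical.choose_spec (hon y)])

theorem rbar_evOf (h : Data2 π ρ₀ ρ₁ ρ₂) (ρ : C →+* T) (hon : ∀ c : C, ∃ a : R, ρ c = ρ₀ a)
    (c : C) : h.rbar (h.evOf ρ hon c) = ρ c := by
  show h.rbar (Ideal.Quotient.mk _ (Classical.choose (hon c))) = ρ c
  rw [rbar_mk, ← Classical.choose_spec (hon c)]

theorem ker_evOf (h : Data2 π ρ₀ ρ₁ ρ₂) (ρ : C →+* T) (hon : ∀ c : C, ∃ a : R, ρ c = ρ₀ a) :
    RingHom.ker (h.evOf ρ hon) = RingHom.ker ρ := by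
  ext c
  rw [RingHom.mem_ker, RingHom.mem_ker, ← h.rbar_evOf ρ hon c]
  constructor
  · intro hc; rw [hc, map_zero]
  · intro hc
    exact h.rbar_injective (by rw [hc, map_zero])

/-- Restriction to the first component. -/
def ev₁ (h : Data2 π ρ₀ ρ₁ ρ₂) : C →+* R ⧸ Ideal.span {π} := h.evOf ρ₁ h.onto₁

/-- Restriction to the second component. -/
def ev₂ (h : Data2 π ρ₀ ρ₁ ρ₂) : C →+* R ⧸ Ideal.span {π} := h.evOf ρ₂ h.onto₂

theorem rbar_ev₁ (h : Data2 π ρ₀ ρ₁ ρ₂) (c : C) : h.rbar (h.ev₁ c) = ρ₁ c :=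
  h.rbar_evOf ρ₁ h.onto₁ c

theorem rbar_ev₂ (h : Data2 π ρ₀ ρ₁ ρ₂) (c : C) : h.rbar (h.ev₂ c) = ρ₂ c :=
  h.rbar_evOf ρ₂ h.onto₂ c

theorem ker_ev₁ (h : Data2 π ρ₀ ρ₁ ρ₂) : RingHom.ker h.ev₁ = RingHom.ker ρ₁ :=
  h.ker_evOf ρ₁ h.onto₁

theorem ker_ev₂ (h : Data2 π ρ₀ ρ₁ ρ₂) : RingHom.ker h.ev₂ = RingHom.ker ρ₂ :=
  h.ker_evOf ρ₂ h.onto₂

theorem ev₁_algebraMap (h : Data2 π ρ₀ ρ₁ ρ₂) (a : R) :
    h.ev₁ (algebraMap R C a) = Ideal.Quotient.mk _ a :=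
  h.rbar_injective (by rw [rbar_ev₁, rbar_mk, h.comp₁])

theorem ev₁_surjective (h : Data2 π ρ₀ ρ₁ ρ₂) : Function.Surjective h.ev₁ := by
  intro x
  obtain ⟨a, rfl⟩ := Ideal.Quotient.mk_surjective x
  exact ⟨algebraMap R C a, h.ev₁_algebraMap a⟩

theorem ev₂_surjective (h : Data2 π ρ₀ ρ₁ ρ₂) : Function.Surjective h.ev₂ := by
  intro x
  obtain ⟨a, rfl⟩ := Ideal.Quotient.mk_surjective x
  obtain ⟨b, -, hb⟩ := h.back a
  exact ⟨b, h.rbar_injective (by rw [rbar_ev₂, rbar_mk, hb])⟩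

/-- `C / ker ρ₁ ≃ R/π`. -/
def quotEquiv₁ (h : Data2 π ρ₀ ρ₁ ρ₂) : C ⧸ RingHom.ker ρ₁ ≃+* R ⧸ Ideal.span {π} :=
  (Ideal.quotEquivOfEq h.ker_ev₁.symm).trans
    (RingHom.quotientKerEquivOfSurjective h.ev₁_surjective)

/-- `C / ker ρ₂ ≃ R/π`. -/
def quotEquiv₂ (h : Data2 π ρ₀ ρ₁ ρ₂) : C ⧸ RingHom.ker ρ₂ ≃+* R ⧸ Ideal.span {π} :=
  (Ideal.quotEquivOfEq h.ker_ev₂.symm).trans
    (RingHom.quotientKerEquivOfSurjective h.ev₂_surjective)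

theorem isDedekindDomain₁ (h : Data2 π ρ₀ ρ₁ ρ₂) [IsDedekindDomain (R ⧸ Ideal.span {π})] :
    IsDedekindDomain (C ⧸ RingHom.ker ρ₁) :=
  Fibre.isDedekindDomain_of_ringEquiv h.quotEquiv₁.symm

theorem isDedekindDomain₂ (h : Data2 π ρ₀ ρ₁ ρ₂) [IsDedekindDomain (R ⧸ Ideal.span {π})] :
    IsDedekindDomain (C ⧸ RingHom.ker ρ₂) :=
  Fibre.isDedekindDomain_of_ringEquiv h.quotEquiv₂.symm

theorem isPrime₁ (h : Data2 π ρ₀ ρ₁ ρ₂) [IsDomain (R ⧸ Ideal.span {π})] :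
    (RingHom.ker ρ₁).IsPrime := by
  rw [← h.ker_ev₁]
  exact RingHom.ker_isPrime _

theorem isPrime₂ (h : Data2 π ρ₀ ρ₁ ρ₂) [IsDomain (R ⧸ Ideal.span {π})] :
    (RingHom.ker ρ₂).IsPrime := by
  rw [← h.ker_ev₂]
  exact RingHom.ker_isPrime _

theorem inf_eq (h : Data2 π ρ₀ ρ₁ ρ₂) :
    RingHom.ker ρ₁ ⊓ RingHom.ker ρ₂ = Ideal.span {algebraMap R C π} := by
  apply le_antisymm
  · rintro c ⟨h1, h2⟩
    rw [Ideal.mem_span_singleton]
    exact h.inf c h1 h2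
  · rw [Ideal.span_singleton_le_iff_mem]
    refine ⟨?_, h.pi₂⟩
    show algebraMap R C π ∈ RingHom.ker ρ₁
    rw [RingHom.mem_ker, h.comp₁, h.pi₀]

/-- The "Frobenius": `frob (a mod π) = ev₂ a`. -/
def frob (h : Data2 π ρ₀ ρ₁ ρ₂) : R ⧸ Ideal.span {π} →+* R ⧸ Ideal.span {π} :=
  Ideal.Quotient.lift _ (h.ev₂.comp (algebraMap R C)) (by
    intro a ha
    obtain ⟨b, rfl⟩ := Ideal.mem_span_singleton'.mp ha
    rw [RingHom.comp_apply, map_mul, map_mul]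
    have h1 : h.ev₂ (algebraMap R C π) = 0 :=
      h.rbar_injective (by rw [rbar_ev₂, h.pi₂, map_zero])
    rw [h1, mul_zero])

theorem frob_mk (h : Data2 π ρ₀ ρ₁ ρ₂) (a : R) :
    h.frob (Ideal.Quotient.mk _ a) = h.ev₂ (algebraMap R C a) := rfl

theorem frob_mk_eq (h : Data2 π ρ₀ ρ₁ ρ₂) {a a' : R} (haa : ρ₂ (algebraMap R C a) = ρ₀ a') :
    h.frob (Ideal.Quotient.mk _ a) = Ideal.Quotient.mk _ a' :=
  h.rbar_injective (by rw [frob_mk, rbar_ev₂, rbar_mk, haa])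

/-- The node ideal: the image of the second component in the first. -/
def nodeIdeal (h : Data2 π ρ₀ ρ₁ ρ₂) : Ideal (R ⧸ Ideal.span {π}) :=
  (RingHom.ker ρ₂).map h.ev₁

theorem fixIdeal_le_nodeIdeal (h : Data2 π ρ₀ ρ₁ ρ₂) :
    Glue.fixIdeal h.frob ≤ h.nodeIdeal := by
  refine Ideal.span_le.mpr ?_
  rintro _ ⟨s, rfl⟩
  obtain ⟨a, rfl⟩ := Ideal.Quotient.mk_surjective s
  obtain ⟨a', ha'⟩ := h.onto₂ (algebraMap R C a)
  obtain ⟨b, hb1, hb2⟩ := h.back a'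
  have hF1 : h.frob (Ideal.Quotient.mk _ a) = Ideal.Quotient.mk _ a' := h.frob_mk_eq ha'
  have hmem : b - algebraMap R C a ∈ RingHom.ker ρ₂ := by
    rw [RingHom.mem_ker, map_sub, hb2, ha', sub_self]
  have hev : h.ev₁ (b - algebraMap R C a) =
      h.frob (h.frob (Ideal.Quotient.mk _ a)) - Ideal.Quotient.mk _ a := by
    rw [map_sub, h.ev₁_algebraMap, hF1]
    congr 1
    exact h.rbar_injective (by rw [rbar_ev₁, hb1, frob_mk, rbar_ev₂])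
  show h.frob (h.frob (Ideal.Quotient.mk _ a)) - Ideal.Quotient.mk _ a ∈ h.nodeIdeal
  rw [← hev]
  exact Ideal.mem_map_of_mem _ hmem

theorem sup_eq_comap (h : Data2 π ρ₀ ρ₁ ρ₂) :
    RingHom.ker ρ₁ ⊔ RingHom.ker ρ₂ = h.nodeIdeal.comap h.ev₁ := by
  rw [nodeIdeal, Ideal.comap_map_of_surjective _ h.ev₁_surjective, sup_comm]
  congr 1
  exact h.ker_ev₁.symm

/-- **(N4)**: the two components cross transversally. -/
theorem sup_isRadical (h : Data2 π ρ₀ ρ₁ ρ₂) [IsDedekindDomain (R ⧸ Ideal.span {π})]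
    (l : ℕ) (hl : 2 ≤ l)
    (hK : ∀ a : R, ∃ s : R, ρ₂ (algebraMap R C a) = ρ₀ s ^ l)
    (a a' a'' : R) (h1 : ρ₂ (algebraMap R C a) = ρ₀ a')
    (h2 : ρ₂ (algebraMap R C a') = ρ₀ a'') (hne : ρ₀ a'' ≠ ρ₀ a) :
    (RingHom.ker ρ₁ ⊔ RingHom.ker ρ₂).IsRadical := by
  have hF : ∀ x, ∃ y, h.frob x = y ^ l := by
    intro x
    obtain ⟨r, rfl⟩ := Ideal.Quotient.mk_surjective x
    obtain ⟨s, hs⟩ := hK r
    refine ⟨Ideal.Quotient.mk _ s, h.rbar_injective ?_⟩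
    rw [frob_mk, rbar_ev₂, hs, map_pow, rbar_mk]
  have hrad : (Glue.fixIdeal h.frob).IsRadical :=
    Fibre.fixIdeal_isRadical_of_exists_pow h.frob l hl hF
  have hnebot : Glue.fixIdeal h.frob ≠ ⊥ := by
    intro hbot
    have h3 : h.frob (h.frob (Ideal.Quotient.mk _ a)) - Ideal.Quotient.mk _ a ∈
        Glue.fixIdeal h.frob := Glue.sq_sub_mem_fixIdeal h.frob _
    rw [hbot, Ideal.mem_bot, sub_eq_zero, h.frob_mk_eq h1, h.frob_mk_eq h2] at h3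
    apply hne
    have := congrArg h.rbar h3
    rwa [rbar_mk, rbar_mk] at this
  have hdim : ∀ Q : Ideal (R ⧸ Ideal.span {π}), Q.IsPrime → Glue.fixIdeal h.frob ≤ Q →
      Q.IsMaximal := fun Q hQ hle =>
    Fibre.isMaximal_of_le_of_ne_bot (Glue.fixIdeal h.frob) hnebot Q hQ hle
  obtain ⟨Y, hY, -, hJ⟩ := Fibre.exists_finset_maximal_of_le _ _ hrad hdim
    h.fixIdeal_le_nodeIdeal
  have hJrad : h.nodeIdeal.IsRadical := by
    rw [hJ]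
    exact Fibre.isRadical_finset_inf Y hY
  rw [h.sup_eq_comap]
  exact Ideal.IsRadical.comap h.ev₁ hJrad

/-- **All fields of the nodal contract** for the pair `ker ρ₁`, `ker ρ₂`. -/
theorem nodal (h : Data2 π ρ₀ ρ₁ ρ₂) [IsDedekindDomain (R ⧸ Ideal.span {π})]
    (l : ℕ) (hl : 2 ≤ l)
    (hK : ∀ a : R, ∃ s : R, ρ₂ (algebraMap R C a) = ρ₀ s ^ l)
    (a a' a'' : R) (h1 : ρ₂ (algebraMap R C a) = ρ₀ a')
    (h2 : ρ₂ (algebraMap R C a') = ρ₀ a'') (hne : ρ₀ a'' ≠ ρ₀ a)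
    (hs₁ : ∃ c : C, ρ₁ c = 0 ∧ ρ₂ c ≠ 0) (hs₂ : ∃ c : C, ρ₂ c = 0 ∧ ρ₁ c ≠ 0) :
    (RingHom.ker ρ₁).IsPrime ∧ (RingHom.ker ρ₂).IsPrime ∧
      RingHom.ker ρ₁ ≠ RingHom.ker ρ₂ ∧ ¬ RingHom.ker ρ₁ ≤ RingHom.ker ρ₂ ∧
      ¬ RingHom.ker ρ₂ ≤ RingHom.ker ρ₁ ∧
      RingHom.ker ρ₁ ⊓ RingHom.ker ρ₂ = Ideal.span {algebraMap R C π} ∧
      IsDedekindDomain (C ⧸ RingHom.ker ρ₁) ∧ IsDedekindDomain (C ⧸ RingHom.ker ρ₂) ∧
      (RingHom.ker ρ₁ ⊔ RingHom.ker ρ₂).IsRadical := by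
  have hn12 : ¬ RingHom.ker ρ₁ ≤ RingHom.ker ρ₂ := by
    obtain ⟨c, hc1, hc2⟩ := hs₁
    intro hle
    exact hc2 (hle (show c ∈ RingHom.ker ρ₁ from hc1))
  have hn21 : ¬ RingHom.ker ρ₂ ≤ RingHom.ker ρ₁ := by
    obtain ⟨c, hc2, hc1⟩ := hs₂
    intro hle
    exact hc1 (hle (show c ∈ RingHom.ker ρ₂ from hc2))
  refine ⟨h.isPrime₁, h.isPrime₂, ?_, hn12, hn21, h.inf_eq, h.isDedekindDomain₁,
    h.isDedekindDomain₂, h.sup_isRadical l hl hK a a' a'' h1 h2 hne⟩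
  intro heq
  exact hn12 heq.le

end Data2

end Fermat.Agent.S34.ChartInfAlt
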