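import Mathlib

/-!
# PROGRAM U, chart at infinity (Alt route): the regularisation lemma

`D` a subalgebra of the `O`-algebra `L` (a commutative ring), `e y : L` with `e` and `e * y`
integral over `D`.  Then every `b : L` integral over `O[y]` becomes integral over `D` after
multiplication by a power of `e`.

Application (`S34/ChartInfAlt`): `D = O[1/j]`, `y = 1/(W j)`, `e = ε` the leading coefficient of
the modular equation of `y` over `O[1/j]`, which is `≡ 1` modulo the uniformiser by Kronecker's
congruence; so the Atkin–Lehner image of the chart ring of `1/j` lands in the chart ring after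
multiplication by a unit modulo `π`.
-/

set_option autoImplicit false

namespace Fermat.Agent.S34.ChartInfAlt

open Polynomial

section

variable {O L : Type*} [CommRing O] [CommRing L] [Algebra O L]

/-- Elements of `O[y]` become integral over `D` after multiplication by a power of `e`. -/
theorem exists_pow_mul_isIntegral_of_mem_adjoin (D : Subalgebra O L) (e y : L)
    (he : IsIntegral D e) (hey : IsIntegral D (e * y)) {a : L}
    (ha : a ∈ Algebra.adjoin O ({y} : Set L)) : ∃ n : ℕ, IsIntegral D (e ^ n * a) := by
  induction ha using Algebra.adjoin_induction with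
  | mem x hx =>
    rw [Set.mem_singleton_iff] at hx
    subst hx
    exact ⟨1, by rw [pow_one]; exact hey⟩
  | algebraMap r =>
    refine ⟨0, ?_⟩
    rw [pow_zero, one_mul]
    have : algebraMap O L r = algebraMap D L (algebraMap O D r) := rfl
    rw [this]
    exact isIntegral_algebraMap
  | add x z _ _ hx hz =>
    obtain ⟨n, hn⟩ := hx
    obtain ⟨m, hm⟩ := hz
    refine ⟨n + m, ?_⟩
    have : e ^ (n + m) * (x + z) = e ^ m * (e ^ n * x) + e ^ n * (e ^ m * z) := by ring
    rw [this]
    exact ((he.pow m).mul hn).add ((he.pow n).mul hm)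
  | mul x z _ _ hx hz =>
    obtain ⟨n, hn⟩ := hx
    obtain ⟨m, hm⟩ := hz
    refine ⟨n + m, ?_⟩
    have : e ^ (n + m) * (x * z) = (e ^ n * x) * (e ^ m * z) := by ring
    rw [this]
    exact hn.mul hm

/-- Monotonicity in the exponent. -/
theorem isIntegral_pow_mul_of_le (D : Subalgebra O L) (e : L) (he : IsIntegral D e) {a : L}
    {n m : ℕ} (hnm : n ≤ m) (h : IsIntegral D (e ^ n * a)) : IsIntegral D (e ^ m * a) := by
  obtain ⟨k, rfl⟩ := Nat.exists_eq_add_of_le hnm
  have : e ^ (n + k) * a = e ^ k * (e ^ n * a) := by ring
  rw [this]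
  exact (he.pow k).mul h

/-- **Regularisation.**  If `e` and `e * y` are integral over `D`, then every `b` integral over
`O[y]` becomes integral over `D` after multiplication by a power of `e`. -/
theorem exists_pow_mul_isIntegral (D : Subalgebra O L) (e y : L)
    (he : IsIntegral D e) (hey : IsIntegral D (e * y)) {b : L}
    (hb : IsIntegral (Algebra.adjoin O ({y} : Set L)) b) : ∃ n : ℕ, IsIntegral D (e ^ n * b) := by
  classical
  obtain ⟨p, hp, hpb⟩ := hb
  -- the polynomial over `L`
  set P : L[X] := p.map (algebraMap (Algebra.adjoin O ({y} : Set L)) L) with hP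
  have hPm : P.Monic := hp.map _
  have hPb : P.eval b = 0 := by
    rw [hP, eval_map]
    exact hpb
  have hcoeff : ∀ i, P.coeff i ∈ Algebra.adjoin O ({y} : Set L) := by
    intro i
    rw [hP, coeff_map]
    exact (p.coeff i).2
  -- a uniform exponent for the coefficients
  have hex : ∀ i, ∃ n : ℕ, IsIntegral D (e ^ n * P.coeff i) := fun i =>
    exists_pow_mul_isIntegral_of_mem_adjoin D e y he hey (hcoeff i)
  choose n hn using hex
  set N : ℕ := (Finset.range (P.natDegree + 1)).sup n with hN
  have hNi : ∀ i, i ≤ P.natDegree → IsIntegral D (e ^ N * P.coeff i) := by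
    intro i hi
    exact isIntegral_pow_mul_of_le D e he
      (Finset.le_sup (f := n) (Finset.mem_range.mpr (Nat.lt_succ_of_le hi))) (hn i)
  refine ⟨N, ?_⟩
  -- the scaled polynomial has integral coefficients
  set Q : L[X] := scaleRoots P (e ^ N) with hQ
  have hQm : Q.Monic := (monic_scaleRoots_iff _).mpr hPm
  have hQb : Q.eval (e ^ N * b) = 0 := by
    have h := scaleRoots_eval₂_eq_zero (RingHom.id L) (p := P) (r := b) (s := e ^ N)
      (by rw [eval₂_id]; exact hPb)
    rw [eval₂_id, RingHom.id_apply] at h
    exact h
  have hQc : ∀ i, IsIntegral D (Q.coeff i) := by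
    intro i
    rw [hQ, coeff_scaleRoots]
    rcases lt_trichotomy i P.natDegree with hi | hi | hi
    · obtain ⟨k, hk⟩ : ∃ k, P.natDegree - i = k + 1 := ⟨P.natDegree - i - 1, by omega⟩
      have : P.coeff i * (e ^ N) ^ (P.natDegree - i) = (e ^ N) ^ k * (e ^ N * P.coeff i) := by
        rw [hk]; ring
      rw [this]
      exact ((he.pow N).pow k).mul (hNi i hi.le)
    · subst hi
      rw [Nat.sub_self, pow_zero, mul_one, coeff_natDegree, hPm.leadingCoeff]
      exact isIntegral_one
    · rw [coeff_eq_zero_of_natDegree_lt hi, zero_mul]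
      exact isIntegral_zero
  -- `e ^ N * b` is integral over the integral closure of `D`
  let S : Subalgebra D L := integralClosure D L
  have hQS : (↑Q.coeffs : Set L) ⊆ S.toSubring := by
    intro c hc
    obtain ⟨i, -, rfl⟩ := Polynomial.mem_coeffs_iff.mp hc
    exact hQc i
  have hint : IsIntegral S (e ^ N * b) := by
    refine ⟨Q.toSubring S.toSubring hQS, ?_, ?_⟩
    · exact (monic_toSubring Q S.toSubring hQS).mpr hQm
    · have h1 : (Q.toSubring S.toSubring hQS).map (algebraMap S L) = Q :=
        map_toSubring Q S.toSubring hQS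
      rw [← eval_map, h1]
      exact hQb
  exact isIntegral_trans _ hint

end

end Fermat.Agent.S34.ChartInfAlt
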