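import Mathlib
import Fermat.Agent.S34.TwoPrimesGaussZ
import Fermat.Agent.S34.Modular.ChartZero
import Fermat.Agent.S34.ChartInfAlt.Reg
import Fermat.Agent.S34.ChartInfAlt.Fibre2

/-!
# PROGRAM U, chart at infinity (Alt route): the nodal contract on a chart that is not `W`-stable

Setting of `S34/TwoPrimesGauss.lean` **without** `hwu` (the chart ring `C = Chart O (α u')` need
not be stable under the Atkin–Lehner involution `w`; this is the case of `u' = 1/j`).  Instead we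
are given an element `ε` of the level-`M` chart ring `R = Chart O u'` with

* `hε  : redM ε = 1` (`ε ≡ 1` modulo `ϖ`), and
* `hεy : ε * w (α u')` is integral over `O[α u']`.

Then for every `c : C` some `ε ^ D * w c` lies in `C` (`Reg.lean`), with the two reductions of
`c` exchanged.  This is all the two-evaluation fibre lemma (`Fibre2.lean`) needs:

`isNodalChart_eps` : **all fields of `Nodal.IsNodalChart ϖ (α u') (ker redInf) (ker redZero)`**,
from the hypotheses of `TwoPrimesGauss.package` minus `hwu`, plus `ε`, plus the normality of the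
level-`M` special fibre (`hD`) and the Kronecker congruence in reduction form (`hK`) — the same
two extra hypotheses as `Modular.ChartZero.isNodalChart_zero`.
-/

set_option autoImplicit false
set_option linter.unusedSectionVars false
set_option linter.style.haveILetI false

noncomputable section

namespace Fermat.Agent.S34.ChartInfAlt

open ModularCurve Polynomial
open Fermat.Agent.S30 Fermat.Agent.S34 Fermat.Agent.S34.TwoPrimesGauss

section Main

variable {O E : Type*} [CommRing O] [IsDomain O] [IsDiscreteValuationRing O] [Field E]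
  [Algebra O E] [FaithfulSMul O E]
  {L' L : Type*} [Field L'] [Field L] [Algebra O L'] [Algebra O L]
  (ϖ : O) (hϖ : Irreducible ϖ)
  (α : L' →+* L) (hαO : ∀ r : O, α (algebraMap O L' r) = algebraMap O L r)
  (σ : L →+* LaurentSeries E)
  (hσO : ∀ r : O, σ (algebraMap O L r) = HahnSeries.C (algebraMap O E r))
  (hσfrac : ∀ x : L, σ x ∈ GaussDVR.fracField O E)
  (u' : L') (U : LaurentSeries O) (hσu : σ (α u') = GaussDVR.iota O E U)
  (w : L ≃+* L) (hwO : ∀ r : O, w (algebraMap O L r) = algebraMap O L r)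
  (ℓ : ℕ) [NeZero ℓ]
  (hwα : ∀ x : L', σ (w (α x)) = qExpand E ℓ (σ (α x)))
  (hww : ∀ z : L, w (w z) = z)
  (hprime : Prime (piC u' ϖ))
  (hcop : IsCoprime (GaussDVR.rho O U).order (ℓ : ℤ)) (hord : (GaussDVR.rho O U).order ≠ 0)
  (hℓ : 2 ≤ ℓ)
  (hfrob : qExpand (IsLocalRing.ResidueField O) ℓ (GaussDVR.rho O U) = GaussDVR.rho O U ^ ℓ)
  (hrank : ∀ v : Option (Fin 1 ⊕ Fin ℓ) → Chart O (α u'),
    ∃ c : Option (Fin 1 ⊕ Fin ℓ) → Chart O u', c ≠ 0 ∧ ∑ i, incl α hαO u' (c i) * v i = 0)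

local notation "rI" => redInf ϖ hϖ α σ hσO hσfrac u' U hσu
local notation "rZ" => redZero ϖ hϖ α σ hσO hσfrac u' U hσu w hwO ℓ hwα
local notation "rM" => redM ϖ hϖ α hαO σ hσO hσfrac u' U hσu
local notation "ι" => incl α hαO u'
local notation "ρU" => GaussDVR.rho O U

/-- The `∞`-reduction of `ε ^ n * w c` is the `0`-reduction of `c`. -/
theorem redInf_eps_pow_mul (ε : Chart O u') (hε : rM ε = 1) (c : Chart O (α u')) (n : ℕ)
    (hb : IsIntegral (Algebra.adjoin O {α u'}) (α (ε : L') ^ n * w (c : L))) :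
    rI (⟨α (ε : L') ^ n * w (c : L), hb⟩ : Chart O (α u')) = rZ c := by
  have h1 : toV σ hσO ϖ hϖ hσfrac (α u') U hσu
      (⟨α (ε : L') ^ n * w (c : L), hb⟩ : Chart O (α u')) =
      toV σ hσO ϖ hϖ hσfrac (α u') U hσu (ι ε) ^ n *
        toV (σ.comp (w : L →+* L)) (sigmaW_O σ hσO w hwO) ϖ hϖ (fun x => hσfrac (w x)) (α u')
          (qExpand O ℓ U) (sigmaW_u α σ u' U hσu w ℓ hwα) c := by
    apply Subtype.ext
    show σ (α (ε : L') ^ n * w (c : L)) = σ (α (ε : L')) ^ n * σ (w (c : L))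
    rw [map_mul, map_pow]
  show GaussDVR.red O E _ = _
  rw [h1, map_mul, map_pow]
  have h2 : GaussDVR.red O E (toV σ hσO ϖ hϖ hσfrac (α u') U hσu (ι ε)) = 1 := hε
  rw [h2, one_pow, one_mul]
  rfl

include hww in
/-- The `0`-reduction of `ε ^ n * w c` is the `∞`-reduction of `c`. -/
theorem redZero_eps_pow_mul (ε : Chart O u') (hε : rM ε = 1) (c : Chart O (α u')) (n : ℕ)
    (hb : IsIntegral (Algebra.adjoin O {α u'}) (α (ε : L') ^ n * w (c : L))) :
    rZ (⟨α (ε : L') ^ n * w (c : L), hb⟩ : Chart O (α u')) = rI c := by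
  have h1 : toV (σ.comp (w : L →+* L)) (sigmaW_O σ hσO w hwO) ϖ hϖ (fun x => hσfrac (w x)) (α u')
        (qExpand O ℓ U) (sigmaW_u α σ u' U hσu w ℓ hwα)
      (⟨α (ε : L') ^ n * w (c : L), hb⟩ : Chart O (α u')) =
      toV (σ.comp (w : L →+* L)) (sigmaW_O σ hσO w hwO) ϖ hϖ (fun x => hσfrac (w x)) (α u')
        (qExpand O ℓ U) (sigmaW_u α σ u' U hσu w ℓ hwα) (ι ε) ^ n *
        toV σ hσO ϖ hϖ hσfrac (α u') U hσu c := by
    apply Subtype.ext
    show σ (w (α (ε : L') ^ n * w (c : L))) = σ (w (α (ε : L'))) ^ n * σ (c : L)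
    rw [map_mul, map_pow, hww, map_mul, map_pow]
  show GaussDVR.red O E _ = _
  rw [h1, map_mul, map_pow]
  have h2 : GaussDVR.red O E (toV (σ.comp (w : L →+* L)) (sigmaW_O σ hσO w hwO) ϖ hϖ
      (fun x => hσfrac (w x)) (α u') (qExpand O ℓ U) (sigmaW_u α σ u' U hσu w ℓ hwα) (ι ε)) = 1 := by
    have h3 : rZ (ι ε) = 1 := by rw [redZero_incl, hε, map_one]
    exact h3
  rw [h2, one_pow, one_mul]
  rfl

include hww hprime hcop hord hℓ hfrob hrank in
/-- **`chartInf` by `ε`-regularisation, level-free.**  All fields of the nodal contract on the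
chart `C = Chart O (α u')` for the two Gauss primes `p_∞ = ker redInf`, `p_0 = ker redZero`,
when `C` is not `w`-stable but `ε * w (α u')` is integral over `O[α u']` for some `ε ≡ 1`. -/
theorem isNodalChart_eps (ε : Chart O u') (hε : rM ε = 1)
    (hεy : IsIntegral (Algebra.adjoin O {α u'}) (α (ε : L') * w (α u')))
    (hD : IsDedekindDomain (Chart O u' ⧸ Ideal.span {piC u' ϖ}))
    (hK : ∀ r : Chart O u', ∃ s : Chart O u',
      qExpand (IsLocalRing.ResidueField O) ℓ (rM r) = rM s ^ ℓ) :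
    Nodal.IsNodalChart ϖ (α u') (RingHom.ker rI) (RingHom.ker rZ) := by
  classical
  haveI := hD
  have hρ0 : ρU ≠ 0 := fun h => hord (by rw [h, HahnSeries.order_zero])
  have htr : ∀ p : (IsLocalRing.ResidueField O)[X], p ≠ 0 → p.eval₂ HahnSeries.C ρU ≠ 0 :=
    fun p hp => ExpandIndep.eval₂_ne_zero_of_order_ne_zero ρU hord p hp
  have hcentre : ∀ a : Chart O u', rM a = 0 → piC u' ϖ ∣ a :=
    dvd_of_redM_eq_zero ϖ hϖ α hαO σ hσO hσfrac u' U hσu hprime htr
  have hπM : rM (piC u' ϖ) = 0 :=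
    redHom_piC (σ.comp α) (sigmaM_O α hαO σ hσO) ϖ hϖ (fun x => hσfrac (α x)) u' U hσu
  have hπZ : rZ (piC (α u') ϖ) = 0 :=
    redHom_piC (σ.comp (w : L →+* L)) (sigmaW_O σ hσO w hwO) ϖ hϖ (fun x => hσfrac (w x))
      (α u') (qExpand O ℓ U) (sigmaW_u α σ u' U hσu w ℓ hwα)
  -- the coordinate
  have huR : rM (polyChart u' X) = ρU := by
    rw [redM_polyChart, Polynomial.map_X, eval₂_X]
  have huI : rI (ι (polyChart u' X)) = ρU := by
    rw [redInf_incl]; exact huR
  have huZ : rZ (ι (polyChart u' X)) = ρU ^ ℓ := by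
    rw [redZero_incl, huR, hfrob]
  have hpow : ρU ^ (ℓ * ℓ) ≠ ρU := by
    intro h1
    have h2 := congrArg HahnSeries.order h1
    rw [HahnSeries.order_pow, nsmul_eq_mul] at h2
    have h3 : ((ℓ * ℓ : ℕ) : ℤ) = 1 := by
      have h4 : ((ℓ * ℓ : ℕ) : ℤ) * (ρU).order = 1 * (ρU).order := by
        rw [one_mul]; exact h2
      exact mul_right_cancel₀ hord h4
    have h5 : ℓ * ℓ = 1 := by exact_mod_cast h3
    nlinarith
  -- integrality facts
  have hεint : IsIntegral (Algebra.adjoin O {α u'}) (α (ε : L')) := (ι ε).2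
  have hreg : ∀ c : Chart O (α u'), ∃ n : ℕ,
      IsIntegral (Algebra.adjoin O {α u'}) (α (ε : L') ^ n * w (c : L)) := by
    intro c
    exact exists_pow_mul_isIntegral (Algebra.adjoin O {α u'}) (α (ε : L')) (w (α u')) hεint hεy
      (Modular.ChartZero.isIntegral_map_of_fix w hwO (α u') c.2)
  -- the separating element `z = ε * w (α u')`
  have hz1 : IsIntegral (Algebra.adjoin O {α u'}) (α (ε : L') ^ 1 * w ((ι (polyChart u' X) :
      Chart O (α u')) : L)) := by
    rw [pow_one]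
    have : ((ι (polyChart u' X) : Chart O (α u')) : L) = α u' := by
      rw [coe_incl, coe_polyChart, aeval_X]
    rw [this]
    exact hεy
  set z : Chart O (α u') :=
    ⟨α (ε : L') ^ 1 * w ((ι (polyChart u' X) : Chart O (α u')) : L), hz1⟩ with hz
  have hzI : rI z = ρU ^ ℓ := by
    rw [hz, redInf_eps_pow_mul ϖ hϖ α hαO σ hσO hσfrac u' U hσu w hwO ℓ hwα ε hε, huZ]
  have hzZ : rZ z = ρU := by
    rw [hz, redZero_eps_pow_mul ϖ hϖ α hαO σ hσO hσfrac u' U hσu w hwO ℓ hwα hww ε hε, huI]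
  have hs₁ : ∃ c : Chart O (α u'), rI c = 0 ∧ rZ c ≠ 0 := by
    refine ⟨z - ι (polyChart u' X) ^ ℓ, ?_, ?_⟩
    · rw [map_sub, map_pow, hzI, huI, sub_self]
    · rw [map_sub, map_pow, hzZ, huZ, ← pow_mul]
      exact fun h => hpow (sub_eq_zero.mp h).symm
  have hs₂ : ∃ c : Chart O (α u'), rZ c = 0 ∧ rI c ≠ 0 := by
    refine ⟨ι (polyChart u' X) - z ^ ℓ, ?_, ?_⟩
    · rw [map_sub, map_pow, hzZ, huZ, sub_self]
    · rw [map_sub, map_pow, hzI, huI, ← pow_mul]
      exact fun h => hpow (sub_eq_zero.mp h).symm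
  have hzZ' : rZ z = qExpand (IsLocalRing.ResidueField O) ℓ 1 * ρU := by
    rw [hzZ, map_one, one_mul]
  have hsat : ∀ c : Chart O (α u'), rI c = 0 → rZ c = 0 → piC (α u') ϖ ∣ c :=
    TwoPrimesGaussZ.dvd_of_redInf_redZero ϖ hϖ α hαO σ hσO hσfrac u' U hσu w hwO ℓ hwα hprime
      hcop hord hrank z 1 one_ne_zero hzZ' hs₁
  have honto : ∀ c : Chart O (α u'), ∃ a : Chart O u', rI (c - ι a) = 0 :=
    TwoPrimesGaussZ.exists_redInf_sub_eq_zero ϖ hϖ α hαO σ hσO hσfrac u' U hσu w hwO ℓ hwα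
      hprime hcop hord hrank z 1 one_ne_zero hzZ' hs₁ inferInstance
  have honto₁ : ∀ c : Chart O (α u'), ∃ a : Chart O u', rI c = rM a := by
    intro c
    obtain ⟨a, ha⟩ := honto c
    refine ⟨a, ?_⟩
    rw [map_sub, sub_eq_zero] at ha
    rw [ha, redInf_incl]
  -- the algebra structure `R → C`
  letI : Algebra (Chart O u') (Chart O (α u')) := (ι).toAlgebra
  have halg : ∀ a : Chart O u', algebraMap (Chart O u') (Chart O (α u')) a = ι a := fun _ => rfl
  have hπalg : algebraMap (Chart O u') (Chart O (α u')) (piC u' ϖ) = piC (α u') ϖ :=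
    incl_piC ϖ α hαO u'
  have hdata : Data2 (piC u' ϖ) rM rI rZ :=
    { comp₁ := fun a => by rw [halg, redInf_incl]
      ker₀ := hcentre
      pi₀ := hπM
      pi₂ := by rw [hπalg]; exact hπZ
      inf := fun c h1 h2 => by rw [hπalg]; exact hsat c h1 h2
      onto₁ := honto₁
      onto₂ := fun c => by
        obtain ⟨n, hn⟩ := hreg c
        obtain ⟨a, ha⟩ := honto₁ ⟨α (ε : L') ^ n * w (c : L), hn⟩
        refine ⟨a, ?_⟩
        rw [← ha, redInf_eps_pow_mul ϖ hϖ α hαO σ hσO hσfrac u' U hσu w hwO ℓ hwα ε hε]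
      back := fun a => by
        obtain ⟨n, hn⟩ := hreg (ι a)
        refine ⟨⟨α (ε : L') ^ n * w ((ι a : Chart O (α u')) : L), hn⟩, ?_, ?_⟩
        · rw [redInf_eps_pow_mul ϖ hϖ α hαO σ hσO hσfrac u' U hσu w hwO ℓ hwα ε hε, halg]
        · rw [redZero_eps_pow_mul ϖ hϖ α hαO σ hσO hσfrac u' U hσu w hwO ℓ hwα hww ε hε,
            redInf_incl] }
  have hK' : ∀ a : Chart O u', ∃ s : Chart O u',
      rZ (algebraMap (Chart O u') (Chart O (α u')) a) = rM s ^ ℓ := by
    intro a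
    obtain ⟨s, hs⟩ := hK a
    exact ⟨s, by rw [halg, redZero_incl, hs]⟩
  have h1 : rZ (algebraMap (Chart O u') (Chart O (α u')) (polyChart u' X)) =
      rM (polyChart u' X ^ ℓ) := by
    rw [halg, huZ, map_pow, huR]
  have h2 : rZ (algebraMap (Chart O u') (Chart O (α u')) (polyChart u' X ^ ℓ)) =
      rM (polyChart u' X ^ (ℓ * ℓ)) := by
    rw [halg, redZero_incl, map_pow, map_pow, map_pow, huR, hfrob, ← pow_mul]
  have hne : rM (polyChart u' X ^ (ℓ * ℓ)) ≠ rM (polyChart u' X) := by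
    rw [map_pow, huR]
    exact hpow
  obtain ⟨hp₁, hp₂, hne12, hn12, hn21, hinf, hd₁, hd₂, hrad⟩ :=
    hdata.nodal ℓ hℓ hK' (polyChart u' X) (polyChart u' X ^ ℓ) (polyChart u' X ^ (ℓ * ℓ)) h1 h2
      hne hs₁ hs₂
  exact
    { isPrime₁ := hp₁
      isPrime₂ := hp₂
      ne := hne12
      not_le₁₂ := hn12
      not_le₂₁ := hn21
      inf_eq := by rw [hinf, hπalg]; rfl
      dedekind₁ := hd₁
      dedekind₂ := hd₂
      radical := hrad }

end Main

end Fermat.Agent.S34.ChartInfAlt
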