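import Mathlib
import Fermat.Agent.S34.TwoPrimesGauss

/-!
# PROGRAM U, chart at infinity (Alt route): Kronecker's congruence `(K0)` and the element `ε`

* `coeff_zero_of_two_roots` (pure algebra): `P ∈ κ[X][Y]` monic of degree `ℓ + 1` in `Y`
  (`ℓ ≥ 2`, `κ` a domain) with `P(X, X^ℓ) = 0` and `P(X^ℓ, X) = 0` has `P(X, 0) = X^(ℓ+1)`
  (indeed `P = (Y - X^ℓ)(Y^ℓ - X)`).
* `coeff_zero_map_residue` (**(K0)**, vocabulary of `TwoPrimesGauss`): `v : L` with integral
  `q`-expansion `Uv` of nonzero order modulo `ϖ` and `Uv(q^ℓ) ≡ Uv^ℓ`, `w` an involution of `L`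
  over `O` with `(w v)(q) = v(q^ℓ)`, `P ∈ O[X][Y]` monic of degree `ℓ + 1` in `Y` with
  `P(v, w v) = 0`.  Then `P(X, 0) ≡ X^(ℓ+1)` modulo `ϖ`.
* `reflect_map_residue_eq_one` : hence `Q₀ := X^(ℓ+1) P(1/X, 0)` is `≡ 1` modulo `ϖ`.
* `isIntegral_eps_mul` : `ε := Q₀(1/v)` satisfies: `ε * (w v)⁻¹` is integral over `O[1/v]`
  (`ε` is the leading coefficient of the equation of `1/(w v)` over `O[1/v]`).
-/

set_option autoImplicit false
set_option linter.unusedSectionVars false
set_option linter.style.haveILetI false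

noncomputable section

namespace Fermat.Agent.S34.ChartInfAlt

open Polynomial ModularCurve
open Fermat.Agent.S30 Fermat.Agent.S34 Fermat.Agent.S34.TwoPrimesGauss

/-! ### Polynomial algebra -/

section Poly

variable {κ : Type*} [CommRing κ]

/-- If `G ∈ κ[X][Y]` is monic of degree `ℓ` in `Y` and `G(X^ℓ, X) = 0`, then `G(X, 0) = -X`. -/
theorem coeff_zero_of_expand_root (ℓ : ℕ) (hℓ : 2 ≤ ℓ) (G : κ[X][X]) (hG : G.Monic)
    (hdeg : G.natDegree = ℓ) (h : (G.map (expand κ ℓ : κ[X] →+* κ[X])).eval X = 0) :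
    G.coeff 0 = -X := by
  have hℓ0 : 0 < ℓ := by omega
  have hsum : (G.map (expand κ ℓ : κ[X] →+* κ[X])).eval X =
      ∑ k ∈ Finset.range (ℓ + 1), expand κ ℓ (G.coeff k) * X ^ k := by
    rw [eval_eq_sum_range' (n := ℓ + 1) (lt_of_le_of_lt natDegree_map_le (by omega))]
    refine Finset.sum_congr rfl fun k _ => ?_
    rw [coeff_map]
    rfl
  rw [hsum] at h
  have hGℓ : G.coeff ℓ = 1 := by rw [← hdeg]; exact hG.coeff_natDegree
  have hcoeff : ∀ m : ℕ, (G.coeff 0).coeff m + (if m = 1 then 1 else 0) = 0 := by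
    intro m
    have h1 := congrArg (fun p : κ[X] => p.coeff (ℓ * m)) h
    simp only [finsetSum_coeff, coeff_zero] at h1
    rw [Finset.sum_eq_add (0 : ℕ) ℓ (by omega)] at h1
    · rw [pow_zero, mul_one, coeff_expand hℓ0, if_pos (dvd_mul_right ℓ m),
        Nat.mul_div_cancel_left m hℓ0, hGℓ, map_one, one_mul, coeff_X_pow] at h1
      by_cases hm : m = 1
      · subst hm
        rw [mul_one, if_pos rfl] at h1
        rw [if_pos rfl]
        exact h1
      · have hne : ¬ ℓ * m = ℓ := by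
          intro h2
          apply hm
          have h3 : ℓ * m = ℓ * 1 := by rw [h2, mul_one]
          exact Nat.eq_of_mul_eq_mul_left hℓ0 h3
        rw [if_neg hne] at h1
        rw [if_neg hm]
        exact h1
    · intro k hk hne
      rw [coeff_mul_X_pow']
      split_ifs with hkm
      · rw [coeff_expand hℓ0, if_neg]
        intro hdvd
        have h2 : ℓ ∣ ℓ * m - k + k := by
          rw [Nat.sub_add_cancel hkm]; exact dvd_mul_right ℓ m
        have h3 : ℓ ∣ k := (Nat.dvd_add_right hdvd).mp h2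
        have hk' := Finset.mem_range.mp hk
        have h4 := Nat.le_of_dvd (Nat.pos_of_ne_zero hne.1) h3
        have h5 : k ≠ ℓ := hne.2
        omega
      · rfl
    · intro h0
      exact absurd (Finset.mem_range.mpr (by omega)) h0
    · intro h0
      exact absurd (Finset.mem_range.mpr (by omega)) h0
  ext m
  rw [coeff_neg, coeff_X]
  have h1 := hcoeff m
  by_cases hm : m = 1
  · rw [if_pos hm] at h1
    rw [if_pos hm.symm]
    exact eq_neg_of_add_eq_zero_left h1
  · rw [if_neg hm, add_zero] at h1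
    rw [if_neg (fun h => hm h.symm), neg_zero]
    exact h1

/-- **Kronecker's congruence, polynomial form.**  `P ∈ κ[X][Y]` monic of degree `ℓ + 1` in `Y`
with `P(X, X^ℓ) = 0` and `P(X^ℓ, X) = 0` has constant coefficient `P(X, 0) = X^(ℓ+1)`. -/
theorem coeff_zero_of_two_roots [IsDomain κ] (ℓ : ℕ) (hℓ : 2 ≤ ℓ) (P : κ[X][X]) (hP : P.Monic)
    (hdeg : P.natDegree = ℓ + 1) (h1 : P.eval (X ^ ℓ) = 0)
    (h2 : (P.map (expand κ ℓ : κ[X] →+* κ[X])).eval X = 0) : P.coeff 0 = X ^ (ℓ + 1) := by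
  obtain ⟨G, hG⟩ : (X - C (X ^ ℓ : κ[X])) ∣ P := dvd_iff_isRoot.mpr h1
  have hGm : G.Monic := by
    have h3 := hP
    rw [hG] at h3
    exact (monic_X_sub_C _).of_mul_monic_left h3
  have hGdeg : G.natDegree = ℓ := by
    have h3 := hdeg
    rw [hG, (monic_X_sub_C _).natDegree_mul hGm, natDegree_X_sub_C] at h3
    omega
  have h3 : (X - (X : κ[X]) ^ (ℓ * ℓ)) * (G.map (expand κ ℓ : κ[X] →+* κ[X])).eval X = 0 := by
    rw [hG, Polynomial.map_mul, eval_mul, Polynomial.map_sub, map_X, map_C, eval_sub, eval_X,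
      eval_C] at h2
    have h4 : (expand κ ℓ : κ[X] →+* κ[X]) (X ^ ℓ) = X ^ (ℓ * ℓ) := by
      show expand κ ℓ (X ^ ℓ) = _
      rw [map_pow, expand_X, ← pow_mul]
    rw [h4] at h2
    exact h2
  have h4 : (X - (X : κ[X]) ^ (ℓ * ℓ)) ≠ 0 := by
    intro h0
    have h5 := congrArg (fun p : κ[X] => p.coeff 1) h0
    simp only [coeff_sub, coeff_X_one, coeff_X_pow, coeff_zero] at h5
    rw [if_neg (by nlinarith), sub_zero] at h5
    exact one_ne_zero h5
  have h5 := (mul_eq_zero.mp h3).resolve_left h4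
  have h6 := coeff_zero_of_expand_root ℓ hℓ G hGm hGdeg h5
  rw [hG, mul_coeff_zero, h6, coeff_sub, coeff_X_zero, coeff_C_zero, zero_sub, neg_mul_neg,
    ← pow_succ]

/-- If `z ≠ 0` is a root of `p ∈ A[X]`, then `p(0) / z` is integral over `A`. -/
theorem isIntegral_coeff_zero_mul_inv {A L : Type*} [CommRing A] [Field L] [Algebra A L]
    (p : A[X]) (z : L) (hz : z ≠ 0) (h : aeval z p = 0) :
    IsIntegral A (algebraMap A L (p.coeff 0) * z⁻¹) := by
  by_cases h0 : p.coeff 0 = 0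
  · rw [h0, map_zero, zero_mul]
    exact isIntegral_zero
  · letI := invertibleOfNonzero hz
    have h1 : aeval z⁻¹ p.reverse = 0 := by
      rw [aeval_def, ← invOf_eq_inv, eval₂_reverse_eq_zero_iff]
      exact h
    have h2 := isIntegral_leadingCoeff_smul p.reverse z⁻¹ h1
    rwa [reverse_leadingCoeff, trailingCoeff_eq_coeff_zero h0, Algebra.smul_def] at h2

end Poly

/-! ### The modular side -/

section Modular

variable {O E : Type*} [CommRing O] [IsDomain O] [IsDiscreteValuationRing O] [Field E]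
  [Algebra O E] [FaithfulSMul O E]
  {L : Type*} [Field L] [Algebra O L]
  (σ : L →+* LaurentSeries E)
  (hσO : ∀ r : O, σ (algebraMap O L r) = HahnSeries.C (algebraMap O E r))
  (v : L) (Uv : LaurentSeries O) (hσv : σ v = GaussDVR.iota O E Uv)
  (w : L ≃+* L) (hwO : ∀ r : O, w (algebraMap O L r) = algebraMap O L r)
  (ℓ : ℕ) [NeZero ℓ]
  (hwv : σ (w v) = qExpand E ℓ (σ v))
  (hww : ∀ z : L, w (w z) = z)

include hσO hσv hwv in
/-- The modular equation as a `q`-series identity over `O`. -/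
theorem eval₂_series_eq_zero (P : O[X][X])
    (hP : P.eval₂ ((aeval v : O[X] →ₐ[O] L) : O[X] →+* L) (w v) = 0) :
    P.eval₂ (eval₂RingHom (HahnSeries.C : O →+* LaurentSeries O) Uv) (qExpand O ℓ Uv) = 0 := by
  apply GaussDVR.iota_injective O E
  rw [map_zero, hom_eval₂]
  have h1 := congrArg σ hP
  rw [map_zero, hom_eval₂] at h1
  have hcomp : σ.comp ((aeval v : O[X] →ₐ[O] L) : O[X] →+* L) =
      (GaussDVR.iota O E).comp
        (eval₂RingHom (HahnSeries.C : O →+* LaurentSeries O) Uv) :=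
    RingHom.ext fun p => sigma_aeval σ hσO v Uv hσv p
  have hy : σ (w v) = GaussDVR.iota O E (qExpand O ℓ Uv) := by
    rw [hwv, hσv]
    exact (coeffMap_qExpand _ _ _).symm
  rw [hcomp, hy] at h1
  exact h1

include hσO hσv hwv hwO hww in
/-- The swapped modular equation as a `q`-series identity over `O`. -/
theorem eval₂_series_swap_eq_zero (P : O[X][X])
    (hP : P.eval₂ ((aeval v : O[X] →ₐ[O] L) : O[X] →+* L) (w v) = 0) :
    P.eval₂ (eval₂RingHom (HahnSeries.C : O →+* LaurentSeries O) (qExpand O ℓ Uv)) Uv = 0 := by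
  apply GaussDVR.iota_injective O E
  rw [map_zero, hom_eval₂]
  have hy : σ (w v) = GaussDVR.iota O E (qExpand O ℓ Uv) := by
    rw [hwv, hσv]
    exact (coeffMap_qExpand _ _ _).symm
  have h1 := congrArg (fun z => σ (w z)) hP
  simp only [map_zero] at h1
  rw [← RingEquiv.coe_toRingHom, hom_eval₂, RingEquiv.coe_toRingHom, hww, hom_eval₂] at h1
  have hcomp : σ.comp ((w : L →+* L).comp ((aeval v : O[X] →ₐ[O] L) : O[X] →+* L)) =
      (GaussDVR.iota O E).comp
        (eval₂RingHom (HahnSeries.C : O →+* LaurentSeries O) (qExpand O ℓ Uv)) := by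
    have h2 : (w : L →+* L).comp ((aeval v : O[X] →ₐ[O] L) : O[X] →+* L) =
        ((aeval (w v) : O[X] →ₐ[O] L) : O[X] →+* L) := by
      refine Polynomial.ringHom_ext (fun r => ?_) ?_
      · simp [hwO]
      · simp
    rw [h2]
    exact RingHom.ext fun p => sigma_aeval σ hσO (w v) (qExpand O ℓ Uv) hy p
  rw [hcomp, hσv] at h1
  exact h1

include hσO hσv hwv hwO hww in
/-- **(K0), Kronecker's congruence for the constant coefficient of the modular equation.** -/
theorem coeff_zero_map_residue (hord : (GaussDVR.rho O Uv).order ≠ 0) (hℓ : 2 ≤ ℓ)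
    (hfrob : qExpand (IsLocalRing.ResidueField O) ℓ (GaussDVR.rho O Uv) = GaussDVR.rho O Uv ^ ℓ)
    (P : O[X][X]) (hmonic : P.Monic) (hdeg : P.natDegree = ℓ + 1)
    (hP : P.eval₂ ((aeval v : O[X] →ₐ[O] L) : O[X] →+* L) (w v) = 0) :
    (P.coeff 0).map (IsLocalRing.residue O) = X ^ (ℓ + 1) := by
  set κ := IsLocalRing.ResidueField O
  set J : LaurentSeries κ := GaussDVR.rho O Uv with hJ
  set evJ : κ[X] →+* LaurentSeries κ := eval₂RingHom (HahnSeries.C : κ →+* LaurentSeries κ) J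
    with hevJ
  have htr : ∀ p : κ[X], evJ p = 0 → p = 0 := by
    intro p hp
    by_contra hne
    exact ExpandIndep.eval₂_ne_zero_of_order_ne_zero J hord p hne hp
  set Pb : κ[X][X] := P.map (mapRingHom (IsLocalRing.residue O)) with hPb
  have hρJ : (GaussDVR.rho O) (qExpand O ℓ Uv) = J ^ ℓ := by
    rw [← hfrob]
    exact coeffMap_qExpand _ _ _
  -- first root
  have h1 : Pb.eval (X ^ ℓ) = 0 := by
    apply htr
    have hA := congrArg (GaussDVR.rho O) (eval₂_series_eq_zero σ hσO v Uv hσv w ℓ hwv P hP)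
    rw [map_zero, hom_eval₂, hρJ] at hA
    have hcomp : (GaussDVR.rho O).comp
        (eval₂RingHom (HahnSeries.C : O →+* LaurentSeries O) Uv) =
        evJ.comp (mapRingHom (IsLocalRing.residue O)) := by
      refine Polynomial.ringHom_ext (fun r => ?_) ?_
      · simp [hevJ]
      · simp [hevJ, hJ]
    rw [hcomp, ← eval₂_map] at hA
    rw [← eval₂_id, hom_eval₂, RingHom.comp_id, map_pow]
    have hX : evJ X = J := by simp [hevJ]
    rw [hX]
    exact hA
  -- second root
  have h2 : (Pb.map (expand κ ℓ : κ[X] →+* κ[X])).eval X = 0 := by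
    apply htr
    have hA := congrArg (GaussDVR.rho O)
      (eval₂_series_swap_eq_zero σ hσO v Uv hσv w hwO ℓ hwv hww P hP)
    rw [map_zero, hom_eval₂] at hA
    have hcomp : (GaussDVR.rho O).comp
        (eval₂RingHom (HahnSeries.C : O →+* LaurentSeries O) (qExpand O ℓ Uv)) =
        (evJ.comp (expand κ ℓ : κ[X] →+* κ[X])).comp
          (mapRingHom (IsLocalRing.residue O)) := by
      refine Polynomial.ringHom_ext (fun r => ?_) ?_
      · simp [hevJ]
      · simp [hevJ, hρJ]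
    rw [hcomp, ← eval₂_map, ← eval₂_map] at hA
    rw [← eval₂_id, hom_eval₂, RingHom.comp_id]
    have hX : evJ X = J := by simp [hevJ]
    rw [hX]
    exact hA
  have hres := coeff_zero_of_two_roots ℓ hℓ Pb (hmonic.map _)
    (by rw [hPb, hmonic.natDegree_map, hdeg]) h1 h2
  rw [hPb, coeff_map] at hres
  exact hres

include hσO hσv hwv hwO hww in
/-- The reflected constant coefficient `Q₀ = X^(ℓ+1) P(1/X, 0)` is `≡ 1` modulo `ϖ`. -/
theorem reflect_map_residue_eq_one (hord : (GaussDVR.rho O Uv).order ≠ 0) (hℓ : 2 ≤ ℓ)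
    (hfrob : qExpand (IsLocalRing.ResidueField O) ℓ (GaussDVR.rho O Uv) = GaussDVR.rho O Uv ^ ℓ)
    (P : O[X][X]) (hmonic : P.Monic) (hdeg : P.natDegree = ℓ + 1)
    (hP : P.eval₂ ((aeval v : O[X] →ₐ[O] L) : O[X] →+* L) (w v) = 0) :
    (reflect (ℓ + 1) (P.coeff 0)).map (IsLocalRing.residue O) = 1 := by
  rw [← reflect_map, coeff_zero_map_residue σ hσO v Uv hσv w hwO ℓ hwv hww hord hℓ hfrob P hmonic
    hdeg hP, reflect_monomial, revAt_le le_rfl, Nat.sub_self, pow_zero]

omit [IsDomain O] [IsDiscreteValuationRing O] in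
/-- `p(1/x) x^N` as a polynomial in `x`. -/
theorem aeval_reflect (x : L) (hx : x ≠ 0) (N : ℕ) (p : O[X]) (hp : p.natDegree ≤ N) :
    aeval x (reflect N p) = x ^ N * aeval x⁻¹ p := by
  letI := invertibleOfNonzero (inv_ne_zero hx)
  have h := eval₂_reflect_mul_pow (algebraMap O L) x⁻¹ N p hp
  rw [invOf_eq_inv, inv_inv] at h
  rw [aeval_def, aeval_def, ← h, inv_pow]
  field_simp

/-- **The element `ε`.**  `ε := Q₀(1/v)`, `Q₀ = X^N P(1/X, 0)`, makes `ε / (w v)` integral over
`O[1/v]`, as soon as all coefficients of `P` have degree `≤ N`. -/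
theorem isIntegral_eps_mul (hv : v ≠ 0) (hwv0 : w v ≠ 0) (N : ℕ) (P : O[X][X])
    (hPk : ∀ k, (P.coeff k).natDegree ≤ N)
    (hP : P.eval₂ ((aeval v : O[X] →ₐ[O] L) : O[X] →+* L) (w v) = 0) :
    IsIntegral (Algebra.adjoin O {v⁻¹}) (aeval v⁻¹ (reflect N (P.coeff 0)) * (w v)⁻¹) := by
  set A := Algebra.adjoin O ({v⁻¹} : Set L)
  let φ : O[X] → A := fun c => polyHom v⁻¹ (reflect N c)
  have hφ : ∀ c : O[X], c.natDegree ≤ N → algebraMap A L (φ c) = (v⁻¹) ^ N * aeval v c := by
    intro c hc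
    show ((polyHom v⁻¹ (reflect N c) : A) : L) = _
    rw [coe_polyHom, aeval_reflect v⁻¹ (inv_ne_zero hv) N c hc, inv_inv]
  let p₁ : A[X] := ∑ k ∈ Finset.range (P.natDegree + 1), C (φ (P.coeff k)) * X ^ k
  have hp₁ : aeval (w v) p₁ = 0 := by
    have h1 : aeval (w v) p₁ = (v⁻¹) ^ N *
        P.eval₂ ((aeval v : O[X] →ₐ[O] L) : O[X] →+* L) (w v) := by
      rw [eval₂_eq_sum_range, Finset.mul_sum, map_sum]
      refine Finset.sum_congr rfl fun k _ => ?_
      rw [map_mul, aeval_C, map_pow, aeval_X, hφ _ (hPk k), mul_assoc]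
      rfl
    rw [h1, hP, mul_zero]
  have hc0 : p₁.coeff 0 = φ (P.coeff 0) := by
    show (∑ k ∈ Finset.range (P.natDegree + 1), C (φ (P.coeff k)) * X ^ k).coeff 0 = _
    rw [finsetSum_coeff, Finset.sum_eq_single 0]
    · simp
    · intro k _ hk
      rw [coeff_C_mul, coeff_X_pow, if_neg (Ne.symm hk), mul_zero]
    · intro h0
      exact absurd (Finset.mem_range.mpr (Nat.succ_pos _)) h0
  have h2 := isIntegral_coeff_zero_mul_inv p₁ (w v) hwv0 hp₁
  rw [hc0] at h2
  exact h2

end Modular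

end Fermat.Agent.S34.ChartInfAlt
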