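import Mathlib
import Fermat.Agent.S34.ChartInfAlt.EpsChart
import Fermat.Agent.S34.ChartInfAlt.Kronecker0

/-!
# PROGRAM U, chart at infinity (Alt route): the chart `1/v` from the modular equation of `v`

Setting of `S34/TwoPrimesGauss.lean` at the level-`M` coordinate `u' = v'⁻¹` (`v' = j`), without
`hwu`.  Input: a polynomial `P ∈ O[X][Y]`, monic of degree `ℓ + 1` in `Y`, all of whose
coefficients have degree `≤ ℓ + 1` in `X`, with `P(α v', w (α v')) = 0` (the modular equation),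
and an integral `q`-expansion `Uv` of `α v'`.

`isNodalChart_inv` : all fields of `Nodal.IsNodalChart ϖ (α u') (ker redInf) (ker redZero)`.

Proof: `ε := Q₀(u')`, `Q₀ = X^(ℓ+1) P(1/X, 0)`, is `≡ 1` modulo `ϖ` by Kronecker's congruence
(`Kronecker0.lean`), and `ε * w (α u')` is integral over `O[α u']`; conclude by
`isNodalChart_eps`.
-/

set_option autoImplicit false
set_option linter.unusedSectionVars false
set_option linter.style.haveILetI false

noncomputable section

namespace Fermat.Agent.S34.ChartInfAlt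

open ModularCurve Polynomial
open Fermat.Agent.S30 Fermat.Agent.S34 Fermat.Agent.S34.TwoPrimesGauss

section Main

variable {O E : Type*} [CommRing O] [IsDomain O] [IsDiscreteValuationRing O] [Field E]
  [Algebra O E] [FaithfulSMul O E]
  {L' L : Type*} [Field L'] [Field L] [Algebra O L'] [Algebra O L]
  (ϖ : O) (hϖ : Irreducible ϖ)
  (α : L' →+* L) (hαO : ∀ r : O, α (algebraMap O L' r) = algebraMap O L r)
  (σ : L →+* LaurentSeries E)
  (hσO : ∀ r : O, σ (algebraMap O L r) = HahnSeries.C (algebraMap O E r))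
  (hσfrac : ∀ x : L, σ x ∈ GaussDVR.fracField O E)
  (u' : L') (U : LaurentSeries O) (hσu : σ (α u') = GaussDVR.iota O E U)
  (w : L ≃+* L) (hwO : ∀ r : O, w (algebraMap O L r) = algebraMap O L r)
  (ℓ : ℕ) [NeZero ℓ]
  (hwα : ∀ x : L', σ (w (α x)) = qExpand E ℓ (σ (α x)))
  (hww : ∀ z : L, w (w z) = z)
  (hprime : Prime (piC u' ϖ))
  (hcop : IsCoprime (GaussDVR.rho O U).order (ℓ : ℤ)) (hord : (GaussDVR.rho O U).order ≠ 0)
  (hℓ : 2 ≤ ℓ)
  (hfrob : qExpand (IsLocalRing.ResidueField O) ℓ (GaussDVR.rho O U) = GaussDVR.rho O U ^ ℓ)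
  (hrank : ∀ v : Option (Fin 1 ⊕ Fin ℓ) → Chart O (α u'),
    ∃ c : Option (Fin 1 ⊕ Fin ℓ) → Chart O u', c ≠ 0 ∧ ∑ i, incl α hαO u' (c i) * v i = 0)

local notation "rI" => redInf ϖ hϖ α σ hσO hσfrac u' U hσu
local notation "rZ" => redZero ϖ hϖ α σ hσO hσfrac u' U hσu w hwO ℓ hwα
local notation "rM" => redM ϖ hϖ α hαO σ hσO hσfrac u' U hσu
local notation "ι" => incl α hαO u'
local notation "ρU" => GaussDVR.rho O U

include hσu hord hfrob in
/-- The expansion of `v' = u'⁻¹` inherits nonzero order and the Frobenius congruence. -/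
theorem inv_expansion (v' : L') (hv : u' = v'⁻¹) (hv0 : v' ≠ 0) (Uv : LaurentSeries O)
    (hσv : σ (α v') = GaussDVR.iota O E Uv) :
    (GaussDVR.rho O Uv).order ≠ 0 ∧
      qExpand (IsLocalRing.ResidueField O) ℓ (GaussDVR.rho O Uv) = GaussDVR.rho O Uv ^ ℓ := by
  have h1 : Uv * U = 1 := by
    apply GaussDVR.iota_injective O E
    rw [map_mul, map_one, ← hσv, ← hσu, ← map_mul, ← map_mul, hv, mul_inv_cancel₀ hv0, map_one,
      map_one]
  have h2 : GaussDVR.rho O Uv * ρU = 1 := by rw [← map_mul, h1, map_one]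
  have hρ0 : ρU ≠ 0 := fun h => hord (by rw [h, HahnSeries.order_zero])
  have hρv0 : GaussDVR.rho O Uv ≠ 0 := by
    intro h
    rw [h, zero_mul] at h2
    exact zero_ne_one h2
  constructor
  · intro h3
    have h4 := congrArg HahnSeries.order h2
    rw [HahnSeries.order_mul hρv0 hρ0, h3, zero_add, HahnSeries.order_one] at h4
    exact hord h4
  · have h3 : qExpand (IsLocalRing.ResidueField O) ℓ (GaussDVR.rho O Uv) * ρU ^ ℓ = 1 := by
      rw [← hfrob, ← map_mul, h2, map_one]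
    have h4 : GaussDVR.rho O Uv ^ ℓ * ρU ^ ℓ = 1 := by rw [← mul_pow, h2, one_pow]
    exact mul_right_cancel₀ (pow_ne_zero ℓ hρ0) (h3.trans h4.symm)

include hww hprime hcop hord hℓ hfrob hrank in
/-- **`chartInf` from the modular equation** (level-free, `ε`-route).  `u' = v'⁻¹`, `P` the
modular equation of `v'` (monic of degree `ℓ + 1` in `Y`, coefficients of degree `≤ ℓ + 1`),
`Uv` an integral `q`-expansion of `α v'`; plus the hypotheses of `TwoPrimesGauss.package` at
`u'` **without `hwu`**, the normality of the level-`M` special fibre (`hD`) and the Kronecker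
congruence in reduction form (`hK`). -/
theorem isNodalChart_inv (v' : L') (hv : u' = v'⁻¹) (hv0 : v' ≠ 0) (Uv : LaurentSeries O)
    (hσv : σ (α v') = GaussDVR.iota O E Uv)
    (P : O[X][X]) (hmonic : P.Monic) (hdeg : P.natDegree = ℓ + 1)
    (hPk : ∀ k, (P.coeff k).natDegree ≤ ℓ + 1)
    (hP : P.eval₂ ((aeval (α v') : O[X] →ₐ[O] L) : O[X] →+* L) (w (α v')) = 0)
    (hD : IsDedekindDomain (Chart O u' ⧸ Ideal.span {piC u' ϖ}))
    (hK : ∀ r : Chart O u', ∃ s : Chart O u',
      qExpand (IsLocalRing.ResidueField O) ℓ (rM r) = rM s ^ ℓ) :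
    Nodal.IsNodalChart ϖ (α u') (RingHom.ker rI) (RingHom.ker rZ) := by
  obtain ⟨hordv, hfrobv⟩ := inv_expansion α σ u' U hσu ℓ hord hfrob v' hv hv0 Uv hσv
  have hαv0 : α v' ≠ 0 := (map_ne_zero α).mpr hv0
  have hwv0 : w (α v') ≠ 0 := (map_ne_zero w).mpr hαv0
  have hαu : α u' = (α v')⁻¹ := by rw [hv, map_inv₀]
  set Q₀ : O[X] := reflect (ℓ + 1) (P.coeff 0) with hQ₀
  have hQ₀1 : Q₀.map (IsLocalRing.residue O) = 1 :=
    reflect_map_residue_eq_one σ hσO (α v') Uv hσv w hwO ℓ (hwα v') hww hordv hℓ hfrobv P hmonic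
      hdeg hP
  have hε : rM (polyChart u' Q₀) = 1 := by
    rw [redM_polyChart, hQ₀1, eval₂_one]
  have hεy : IsIntegral (Algebra.adjoin O {α u'})
      (α ((polyChart u' Q₀ : Chart O u') : L') * w (α u')) := by
    have h1 := isIntegral_eps_mul (α v') w hαv0 hwv0 (ℓ + 1) P hPk hP
    have h2 : α ((polyChart u' Q₀ : Chart O u') : L') = aeval (α u') Q₀ := by
      rw [coe_polyChart]
      exact congrArg (fun f : O[X] →+* L => f Q₀) (aeval_alpha α hαO u')
    rw [h2, hαu, map_inv₀]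
    exact h1
  exact isNodalChart_eps ϖ hϖ α hαO σ hσO hσfrac u' U hσu w hwO ℓ hwα hww hprime hcop hord hℓ
    hfrob hrank (polyChart u' Q₀) hε hεy hD hK

end Main

end Fermat.Agent.S34.ChartInfAlt
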