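import Mathlib
import Fermat.Agent.S34.PhiShape
import Fermat.Agent.S34.Modular.ThetaInf
import Fermat.Agent.Lib.DecompLift
import Fermat.Agent.S18.K1Defs
import Fermat.Agent.S34.ChartInfAlt.InvChart

/-!
# PROGRAM U: the modular equation of prime level `ℓ` over the valuation ring `OE A E`

* `isShape_descend` : descent of `PhiShape.IsShape` along an injective ring hom `f : R →+* K`
  when all coefficients lie in the range of `f`.
* `exists_isShape_OE` : there is a finite set `S₀ ⊆ Q̄` such that for every intermediate field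
  `E ⊇ S₀` the ring `OE A E = A ∩ E` carries a modular equation
  `P ∈ (OE A E)[X][Y]` with `PhiShape.IsShape (OE A E) ℓ P`.
* `natDegree_coeff_le_of_isShape` : all coefficients of a shape have degree `≤ ℓ + 1`.
* `root_of_isShape` : the root hypothesis `P(v, w v) = 0` in any field `L` with a `q`-expansion
  embedding `σ`, `σ v = j(q)`, `σ (w v) = j(q^ℓ)` (the shape of `hroot` in `Modular/ThetaInf` and
  of `hP` in `ChartInfAlt/InvChart`).
* `isNodalChart_inv_of_isShape` : `chartInf` (`ε`-route) with the modular equation given as an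
  `IsShape`.
-/

set_option autoImplicit false
set_option linter.unusedSectionVars false
set_option linter.style.haveILetI false

noncomputable section

namespace Fermat.Agent.S34.ChartInfAlt

open Polynomial ModularCurve
open Fermat.Agent.S28 Fermat.Agent.S28.Defs Fermat.Agent.S30 Fermat.Agent.S34
open Fermat.Agent.S34.TwoPrimesGauss Fermat.Agent.S18.K1Defs

local notation "Qb" => AlgebraicClosure ℚ

/-! ### Descent of the shape -/

section Descend

variable {R K : Type*} [CommRing R] [CommRing K]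

/-- **Descent of the shape** along an injective ring hom whose range contains all the
coefficients. -/
theorem isShape_descend (f : R →+* K) (hf : Function.Injective f) {ℓ : ℕ} {PK : K[X][X]}
    (h : PhiShape.IsShape K ℓ PK) (hc : ∀ k i, (PK.coeff k).coeff i ∈ Set.range f) :
    ∃ P : R[X][X], P.map (mapRingHom f) = PK ∧ PhiShape.IsShape R ℓ P := by
  have h1 : ∀ k, PK.coeff k ∈ Set.range (mapRingHom f) := by
    intro k
    have h2 : PK.coeff k ∈ lifts f := (lifts_iff_coeff_lifts _).mpr (hc k)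
    obtain ⟨q, hq⟩ := (mem_lifts _).mp h2
    exact ⟨q, hq⟩
  have h2 : PK ∈ lifts (mapRingHom f) := (lifts_iff_coeff_lifts _).mpr h1
  obtain ⟨P, hP⟩ := (mem_lifts _).mp h2
  have hg : Function.Injective (mapRingHom f) := Polynomial.map_injective f hf
  have hcoef : ∀ k i, f ((P.coeff k).coeff i) = (PK.coeff k).coeff i := by
    intro k i
    rw [← hP, coeff_map, coe_mapRingHom, coeff_map]
  have hdeg : ∀ k, (P.coeff k).natDegree = (PK.coeff k).natDegree := by
    intro k
    rw [← hP, coeff_map, coe_mapRingHom, natDegree_map_eq_of_injective hf]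
  have hinj : Function.Injective (coeffMap f) := by
    intro a b hab
    ext n
    have h3 := congrArg (fun x : LaurentSeries K => x.coeff n) hab
    simp only [coeffMap_coeff] at h3
    exact hf h3
  refine ⟨P, hP, ⟨?_, ?_, ?_, ?_, ?_, ?_, ?_, ?_⟩⟩
  · exact monic_of_injective hg (by rw [hP]; exact h.monic)
  · rw [← natDegree_map_eq_of_injective hg P, hP]
    exact h.natDegree_eq
  · apply hinj
    rw [map_zero, hom_eval₂, Formal.coeffMap_qE, coeffMap_jqModC, PhiShape.coeffMap_comp_evalJ,
      ← eval₂_map, hP]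
    exact h.root
  · intro k i
    have h3 := h.integral k i
    rw [← hcoef k i] at h3
    exact (isIntegral_algHom_iff (f.toIntAlgHom) hf).mp h3
  · intro k hk1 hk
    rw [hdeg]
    exact h.natDegree_coeff_le k hk1 hk
  · apply hf
    rw [hcoef, h.coeff_top, map_neg, map_one]
  · rw [hdeg]
    exact h.natDegree_coeff_zero_le
  · apply hf
    rw [map_pow, hcoef, h.unit, map_one]

/-- All coefficients of a shape have degree `≤ ℓ + 1`. -/
theorem natDegree_coeff_le_of_isShape {ℓ : ℕ} {P : R[X][X]} (h : PhiShape.IsShape R ℓ P)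
    (k : ℕ) : (P.coeff k).natDegree ≤ ℓ + 1 := by
  rcases Nat.lt_or_ge k 1 with hk0 | hk1
  · have : k = 0 := by omega
    subst this
    exact h.natDegree_coeff_zero_le
  · rcases Nat.lt_or_ge ℓ k with hk | hk
    · rcases Nat.lt_or_ge (ℓ + 1) k with hk' | hk'
      · rw [coeff_eq_zero_of_natDegree_lt (by rw [h.natDegree_eq]; exact hk'), natDegree_zero]
        exact Nat.zero_le _
      · have hkeq : k = P.natDegree := by rw [h.natDegree_eq]; omega
        rw [hkeq, h.monic.coeff_natDegree, natDegree_one]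
        exact Nat.zero_le _
    · exact (h.natDegree_coeff_le k hk1 hk).trans (Nat.le_succ ℓ)

end Descend

/-! ### The modular equation over `OE A E` -/

/-- **The modular equation of prime level `ℓ` over `OE A E`**, for every intermediate field
`E` of `Q̄/ℚ` containing a fixed finite set of algebraic integers (the coefficients). -/
theorem exists_isShape_OE {ℓ : ℕ} (hℓ : ℓ.Prime) (A : ValuationSubring Qb) :
    ∃ S₀ : Finset Qb, ∀ E : IntermediateField ℚ Qb, (∀ s ∈ S₀, s ∈ E) →
      ∃ P : (OE A E)[X][X], PhiShape.IsShape (OE A E) ℓ P := by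
  classical
  obtain ⟨PQ, hPQ⟩ := PhiShape.exists_isShape hℓ Qb
  refine ⟨PQ.coeffs.biUnion fun c => c.coeffs, fun E hE => ?_⟩
  let f : OE A E →+* Qb := (algebraMap E Qb).comp (OE A E).subtype
  have hf : Function.Injective f :=
    (algebraMap E Qb).injective.comp Subtype.val_injective
  have hc : ∀ k i, (PQ.coeff k).coeff i ∈ Set.range f := by
    intro k i
    by_cases h0 : (PQ.coeff k).coeff i = 0
    · exact ⟨0, by rw [map_zero, h0]⟩
    · have hk0 : PQ.coeff k ≠ 0 := by
        intro h1
        exact h0 (by rw [h1, coeff_zero])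
      have hS : (PQ.coeff k).coeff i ∈ PQ.coeffs.biUnion fun c => c.coeffs :=
        Finset.mem_biUnion.mpr ⟨PQ.coeff k, coeff_mem_coeffs hk0, coeff_mem_coeffs h0⟩
      have hcE : (PQ.coeff k).coeff i ∈ E := hE _ hS
      have hcA : (PQ.coeff k).coeff i ∈ A :=
        Fermat.Agent.Lib.DecompLift.mem_of_isIntegral A (hPQ.integral k i)
      exact ⟨⟨⟨(PQ.coeff k).coeff i, hcE⟩, hcA⟩, rfl⟩
  obtain ⟨P, -, hP⟩ := isShape_descend f hf hPQ hc
  exact ⟨P, hP⟩

/-! ### The root hypothesis in a field with `q`-expansions -/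

section Root

variable {O E : Type*} [CommRing O] [IsDomain O] [IsDiscreteValuationRing O] [Field E]
  [Algebra O E] [FaithfulSMul O E] {L : Type*} [Field L] [Algebra O L]

/-- **The modular equation holds in `L`**: if `σ v = j(q)` and `σ (w v) = j(q^ℓ)`, a shape `P`
over `O` satisfies `P(v, w v) = 0`. -/
theorem root_of_isShape (σ : L →+* LaurentSeries E)
    (hσO : ∀ r : O, σ (algebraMap O L r) = HahnSeries.C (algebraMap O E r))
    (v : L) (hσv : σ v = GaussDVR.iota O E (jqModC O)) (y : L) (ℓ : ℕ) [NeZero ℓ]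
    (hy : σ y = qExpand E ℓ (σ v)) {P : O[X][X]} (h : PhiShape.IsShape O ℓ P) :
    P.eval₂ ((aeval v : O[X] →ₐ[O] L) : O[X] →+* L) y = 0 := by
  apply Modular.ThetaInf.root_of_sigma σ hσO v y P
  have h1 := congrArg (GaussDVR.iota O E) h.root
  rw [map_zero, hom_eval₂, Formal.coeffMap_qE, Orders.qE_of_ne_zero E (NeZero.ne ℓ)] at h1
  have hcomp : (GaussDVR.iota O E).comp
      (eval₂RingHom (HahnSeries.C : O →+* LaurentSeries O) (jqModC O)) =
      eval₂RingHom ((HahnSeries.C : E →+* LaurentSeries E).comp (algebraMap O E)) (σ v) := by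
    refine Polynomial.ringHom_ext (fun r => ?_) ?_
    · simp
    · simp [hσv]
  rw [hcomp, ← hσv, ← hy] at h1
  exact h1

end Root

/-! ### `chartInf` from a shape -/

section Main

variable {O E : Type*} [CommRing O] [IsDomain O] [IsDiscreteValuationRing O] [Field E]
  [Algebra O E] [FaithfulSMul O E]
  {L' L : Type*} [Field L'] [Field L] [Algebra O L'] [Algebra O L]
  (ϖ : O) (hϖ : Irreducible ϖ)
  (α : L' →+* L) (hαO : ∀ r : O, α (algebraMap O L' r) = algebraMap O L r)
  (σ : L →+* LaurentSeries E)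
  (hσO : ∀ r : O, σ (algebraMap O L r) = HahnSeries.C (algebraMap O E r))
  (hσfrac : ∀ x : L, σ x ∈ GaussDVR.fracField O E)
  (u' : L') (U : LaurentSeries O) (hσu : σ (α u') = GaussDVR.iota O E U)
  (w : L ≃+* L) (hwO : ∀ r : O, w (algebraMap O L r) = algebraMap O L r)
  (ℓ : ℕ) [NeZero ℓ]
  (hwα : ∀ x : L', σ (w (α x)) = qExpand E ℓ (σ (α x)))
  (hww : ∀ z : L, w (w z) = z)
  (hprime : Prime (piC u' ϖ))
  (hcop : IsCoprime (GaussDVR.rho O U).order (ℓ : ℤ)) (hord : (GaussDVR.rho O U).order ≠ 0)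
  (hℓ : 2 ≤ ℓ)
  (hfrob : qExpand (IsLocalRing.ResidueField O) ℓ (GaussDVR.rho O U) = GaussDVR.rho O U ^ ℓ)
  (hrank : ∀ v : Option (Fin 1 ⊕ Fin ℓ) → Chart O (α u'),
    ∃ c : Option (Fin 1 ⊕ Fin ℓ) → Chart O u', c ≠ 0 ∧ ∑ i, incl α hαO u' (c i) * v i = 0)

include hww hprime hcop hord hℓ hfrob hrank in
/-- **`chartInf` for the coordinate `1/j` (level-free, `ε`-route).**  `u' = v'⁻¹` where `α v'`
has the `q`-expansion `j(q)`, `P` any modular equation of level `ℓ` over `O`
(`PhiShape.IsShape O ℓ P`); plus the hypotheses of `TwoPrimesGauss.package` at `u'` without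
`hwu`, `hD` and `hK`. -/
theorem isNodalChart_inv_of_isShape (v' : L') (hv : u' = v'⁻¹) (hv0 : v' ≠ 0)
    (hσv : σ (α v') = GaussDVR.iota O E (jqModC O))
    (P : O[X][X]) (hP : PhiShape.IsShape O ℓ P)
    (hD : IsDedekindDomain (Chart O u' ⧸ Ideal.span {piC u' ϖ}))
    (hK : ∀ r : Chart O u', ∃ s : Chart O u',
      qExpand (IsLocalRing.ResidueField O) ℓ (redM ϖ hϖ α hαO σ hσO hσfrac u' U hσu r) =
        redM ϖ hϖ α hαO σ hσO hσfrac u' U hσu s ^ ℓ) :
    Nodal.IsNodalChart ϖ (α u') (RingHom.ker (redInf ϖ hϖ α σ hσO hσfrac u' U hσu))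
      (RingHom.ker (redZero ϖ hϖ α σ hσO hσfrac u' U hσu w hwO ℓ hwα)) :=
  isNodalChart_inv ϖ hϖ α hαO σ hσO hσfrac u' U hσu w hwO ℓ hwα hww hprime hcop hord hℓ hfrob
    hrank v' hv hv0 (jqModC O) hσv P hP.monic hP.natDegree_eq
    (natDegree_coeff_le_of_isShape hP)
    (root_of_isShape σ hσO (α v') hσv (w (α v')) ℓ (hwα v') hP) hD hK

end Main

end Fermat.Agent.S34.ChartInfAlt
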