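import Mathlib
import Fermat.Agent.S34.Modular.ChartInfE
import Fermat.Agent.S34.Sat
import Fermat.Agent.S34.ChartInfAlt.ModEqE
import Fermat.Agent.S34.ChartInfAlt.KInvE
import Fermat.Agent.S34.HauptU.LevelMAux
import Fermat.Agent.S34.FinalGt3

/-!
# PROGRAM U, `ℓ > 3`: `Final.RootGt3` by the eps-route (E-level assembly)

End-to-end assembly of the landed bricks for the coordinate `u = j` at level `M ℓ`:

* `hinf_E` : the chart at infinity (`Modular.ChartInfE.hinf_of_modEq`) at `O = OE A E`, from the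
  level-`M` facts (`HauptU.LevelMAux.ChartFacts`), a modular equation `P` over `OE A E`
  (`ChartInfAlt.exists_isShape_OE`), the `1/j` plug-in (`Sat`) and the Kronecker congruence at
  `1/j` (`ChartInfAlt.hK_inv`);
* `hasRootDatum_E` : `RootGlue.HasRootDatum` from `Modular.Datum.nodalDatum` (chart zero: `Sat`
  + `KroneckerChart.hK_redM_of_coeffEmb`; chart infinity: `hinf_E`) and
  `FinalGt3.hasRootDatum_j`;
* `rootDatumGt3 : FinalGt3.RootDatumGt3` and `rootGt3 : Final.RootGt3`.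
-/

set_option autoImplicit false
set_option linter.unusedSectionVars false
set_option linter.unusedVariables false
set_option linter.style.haveILetI false
set_option synthInstance.maxHeartbeats 400000

open ModularCurve Polynomial

noncomputable section

namespace Fermat.Agent.S34.ChartInfAlt.RootGt3Eps

open Fermat.Agent.S18.K1Defs Fermat.Agent.S30 Fermat.Agent.S30.E2Deg
open Fermat.Agent.S34 Fermat.Agent.S34.Sat
open Fermat.Agent.S34.TwoPrimesRank Fermat.Agent.S34.HauptU.Plug Fermat.Agent.S34.TwoPrimesGauss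
open Fermat.Agent.S34.Modular

local notation "Qb" => AlgebraicClosure ℚ

set_option maxHeartbeats 1600000 in
theorem hinf_E (M ℓ : ℕ) [NeZero M] [NeZero ℓ] (hℓ : ℓ.Prime) (hℓM : ¬ ℓ ∣ M)
    (A : ValuationSubring Qb) (hA : A.LiesOverPrime ℓ)
    (E : IntermediateField ℚ Qb) [Normal ℚ E] [IsDiscreteValuationRing (OE A E)]
    [Algebra (OE A E) (LE M E)] [IsScalarTower (OE A E) E (LE M E)]
    [Algebra (OE A E) (LE (M * ℓ) E)] [IsScalarTower (OE A E) E (LE (M * ℓ) E)]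
    (π : OE A E) (hπ : Irreducible π)
    (hfacts : HauptU.LevelMAux.ChartFacts E π (jE M E) (jE M E)⁻¹)
    (P : (OE A E)[X][X]) (hP : PhiShape.IsShape (OE A E) ℓ P) :
    Nodal.IsNodalChart π (alphaHom M ℓ E (jE M E))⁻¹
      ((Datum.P₁ π hπ (alphaHom M ℓ E) (sigmaHom (M * ℓ) E) (sigmaHom_algebraMap (M * ℓ) E)
        (sigmaHom_mem_fracField (M * ℓ) E A) (jE M E) (jqModC (OE A E)) (hσu_j M ℓ E)
        (hρ_j _)).comap (Nodal.toOverlapInf (OE A E) (alphaHom M ℓ E (jE M E))))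
      ((Datum.P₂ π hπ (alphaHom M ℓ E) (sigmaHom (M * ℓ) E) (sigmaHom_algebraMap (M * ℓ) E)
        (sigmaHom_mem_fracField (M * ℓ) E A) (jE M E) (jqModC (OE A E)) (hσu_j M ℓ E)
        (wHom M ℓ E hℓ hℓM) (wHom_algebraMap M ℓ E hℓ hℓM) ℓ
        (sigmaHom_wHom_alpha M ℓ E hℓ hℓM) (hρ_j _)).comap
        (Nodal.toOverlapInf (OE A E) (alphaHom M ℓ E (jE M E)))) := by
  haveI := charP_residue_OE' A E hℓ hA
  have hu0 : jE M E ≠ 0 := by
    intro h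
    have h1 := hρ_j (OE A E)
    have h2 := hσu_j (O := OE A E) M ℓ E
    rw [h, map_zero, map_zero] at h2
    have h3 : jqModC (OE A E) = 0 := by
      apply GaussDVR.iota_injective (OE A E) E
      rw [← h2, map_zero]
    exact h1 (by rw [h3, map_zero])
  exact ChartInfE.hinf_of_modEq π hπ (alphaHom M ℓ E) (alphaHom_algebraMap M ℓ E)
    (sigmaHom (M * ℓ) E) (sigmaHom_algebraMap (M * ℓ) E) (sigmaHom_mem_fracField (M * ℓ) E A)
    (jE M E) (jqModC (OE A E)) (hσu_j M ℓ E) (wHom M ℓ E hℓ hℓM)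
    (wHom_algebraMap M ℓ E hℓ hℓM) ℓ (sigmaHom_wHom_alpha M ℓ E hℓ hℓM) (hρ_j _)
    (XqO (OE A E)) (hσu_inv M ℓ E) hu0 (wHom_wHom M ℓ E hℓ hℓM) hfacts.prime_inf
    (hcop_inv _ ℓ) (hord_inv _) hℓ.two_le (hfrob_inv _ ℓ hℓ) (hrank_inv M ℓ E hℓ hℓM)
    P hP.monic hP.natDegree_eq (ChartInfAlt.natDegree_coeff_le_of_isShape hP)
    (ChartInfAlt.root_of_isShape (sigmaHom (M * ℓ) E) (sigmaHom_algebraMap (M * ℓ) E)
      (alphaHom M ℓ E (jE M E)) (hσu_j M ℓ E) (wHom M ℓ E hℓ hℓM (alphaHom M ℓ E (jE M E))) ℓ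
      (sigmaHom_wHom_alpha M ℓ E hℓ hℓM (jE M E)) hP)
    hfacts.dedekind_inf
    (ChartInfAlt.hK_inv A E ℓ hℓ hA M π hπ (alphaHom_algebraMap M ℓ E)
      (sigmaHom_algebraMap (M * ℓ) E) (sigmaHom_mem_fracField (M * ℓ) E A) (jE M E)
      (XqO (OE A E)) (hσu_inv M ℓ E) jq (coe_jE M E))

set_option maxHeartbeats 1600000 in
theorem hasRootDatum_E (M ℓ : ℕ) [NeZero M] [NeZero ℓ] (hℓ : ℓ.Prime) (hℓM : ¬ ℓ ∣ M)
    (A : ValuationSubring Qb) (hA : A.LiesOverPrime ℓ)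
    (E : IntermediateField ℚ Qb) [Normal ℚ E] [IsDiscreteValuationRing (OE A E)]
    (π : OE A E) (hπ : Irreducible π)
    (hfacts : letI := Fermat.Agent.S18.K1Main.algebraOL (OE A E) E (LE M E)
      HauptU.LevelMAux.ChartFacts E π (jE M E) (jE M E)⁻¹)
    (P : (OE A E)[X][X]) (hP : PhiShape.IsShape (OE A E) ℓ P) :
    RootGlue.HasRootDatum (M * ℓ) A (ToricSwap.wAL M ℓ hℓ hℓM).toRingEquiv E π := by
  letI := Fermat.Agent.S18.K1Main.algebraOL (OE A E) E (LE M E)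
  haveI := Fermat.Agent.S18.K1Main.isScalarTower_OL (OE A E) E (LE M E)
  letI := Fermat.Agent.S18.K1Main.algebraOL (OE A E) E (LE (M * ℓ) E)
  haveI := Fermat.Agent.S18.K1Main.isScalarTower_OL (OE A E) E (LE (M * ℓ) E)
  haveI := charP_residue_OE' A E hℓ hA
  have hex := Fermat.Agent.Lib.Frobenius.exists_isFrobeniusAt A hℓ hA
  obtain ⟨φ, hφ⟩ := hex
  have hinf := hinf_E M ℓ hℓ hℓM A hA E π hπ hfacts P hP
  have hu : alphaHom M ℓ E (jE M E) = Fermat.Agent.S18.K1Main.jE (M * ℓ) E := by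
    apply Subtype.ext
    rw [alphaHom_apply, coe_heckeAlphaBar, coe_jE, Fermat.Agent.S18.K1Main.coe_jE]
  exact FinalGt3.hasRootDatum_j M ℓ hℓ hℓM A E π (alphaHom M ℓ E (jE M E)) hu
    (Datum.nodalDatum π hπ (alphaHom M ℓ E) (alphaHom_algebraMap M ℓ E) (sigmaHom (M * ℓ) E)
      (sigmaHom_algebraMap (M * ℓ) E) (sigmaHom_mem_fracField (M * ℓ) E A) (jE M E)
      (jqModC (OE A E)) (hσu_j M ℓ E) (wHom M ℓ E hℓ hℓM) (wHom_algebraMap M ℓ E hℓ hℓM) ℓ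
      (sigmaHom_wHom_alpha M ℓ E hℓ hℓM) (wHom_wHom M ℓ E hℓ hℓM) hfacts.prime_zero
      (hcop_j _ ℓ) (hord_j _) hℓ.two_le (hfrob_j _ ℓ hℓ) (hwu_j M ℓ E hℓ hℓM)
      (hrank_j M ℓ E hℓ hℓM) (hρ_j _) hfacts.dedekind_zero
      (KroneckerChart.hK_redM_of_coeffEmb A E ℓ hℓ hA hφ M π hπ (alphaHom M ℓ E)
        (alphaHom_algebraMap M ℓ E) (sigmaHom (M * ℓ) E) (sigmaHom_algebraMap (M * ℓ) E)
        (sigmaHom_mem_fracField (M * ℓ) E A) (jE M E) (jqModC (OE A E)) (hσu_j M ℓ E)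
        (sigma_alpha M ℓ E) jq (coe_jE M E))
      hinf)
    (fun x hx => Datum.mem_P₁_iff π hπ (alphaHom M ℓ E) (sigmaHom (M * ℓ) E)
      (sigmaHom_algebraMap (M * ℓ) E) (sigmaHom_mem_fracField (M * ℓ) E A) (jE M E)
      (jqModC (OE A E)) (hσu_j M ℓ E) (hρ_j _) x hx)
    (fun x hx => Datum.mem_P₂_iff π hπ (alphaHom M ℓ E) (sigmaHom (M * ℓ) E)
      (sigmaHom_algebraMap (M * ℓ) E) (sigmaHom_mem_fracField (M * ℓ) E A) (jE M E)
      (jqModC (OE A E)) (hσu_j M ℓ E) (wHom M ℓ E hℓ hℓM) (wHom_algebraMap M ℓ E hℓ hℓM) ℓ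
      (sigmaHom_wHom_alpha M ℓ E hℓ hℓM) (hρ_j _) x hx)

theorem rootDatumGt3 : FinalGt3.RootDatumGt3 := by
  intro M ℓ _ _ hℓ hℓM h3 A hA
  haveI : Fact ℓ.Prime := ⟨hℓ⟩
  have h1 := HauptU.LevelMAux.exists_levelM_jE A M hℓM h3 hA
  obtain ⟨S₁, hS₁⟩ := h1
  have h2 := ChartInfAlt.exists_isShape_OE hℓ A
  obtain ⟨S₂, hS₂⟩ := h2
  classical
  refine ⟨S₁ ∪ S₂, fun E _ _ _ hE π hπ => ?_⟩
  have hf := hS₁ E (fun s hs => hE s (Finset.mem_union_left _ hs)) π hπ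
  have hP' := hS₂ E (fun s hs => hE s (Finset.mem_union_right _ hs))
  obtain ⟨P, hP⟩ := hP'
  exact hasRootDatum_E M ℓ hℓ hℓM A hA E π hπ hf P hP

theorem rootGt3 : Final.RootGt3 := FinalGt3.rootGt3_of_datum rootDatumGt3

end Fermat.Agent.S34.ChartInfAlt.RootGt3Eps
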