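import Mathlib
import Fermat.Agent.S34.Modular.Datum
import Fermat.Agent.S34.Modular.KroneckerChart
import Fermat.Agent.S34.Sat
import Fermat.Agent.S34.HauptU.LevelMAux
import Fermat.Agent.S34.HauptU.RootDatumH
import Fermat.Agent.Lib.Frobenius

/-!
# PROGRAM U, `ℓ ∈ {2, 3}`: `Final.RootSmall` (E-level assembly for the Hauptmodul coordinates)

* `nodalExit_of_facts` : for a level-`M` coordinate `u'` with `v' = u'⁻¹`, integral
  `q`-expansions `1/a`, `a` (`a = q + …` an integral power series), rational coefficients, and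
  both charts stable under the swap: the nodal datum `Modular.Datum.nodalDatum_of_inv` with its
  two Gauss characterisations (`HauptU.RootDatumH.NodalExit`), from the level-`M` facts
  (`HauptU.LevelMAux.ChartFacts`), the plug-in names of `HauptU/Plug.lean`, the rank statement
  of `TwoPrimesRank` and the Kronecker congruence of `Modular/KroneckerChart.lean`;
* `nodalExit_two` (`ℓ = 3`, `2 ∣ M`, `u' = h₂`), `nodalExit_three` (`ℓ = 2`, `3 ∣ M`, `u' = h₃`);
* `rootSmall : Final.RootSmall`.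
-/

set_option autoImplicit false
set_option linter.unusedSectionVars false
set_option linter.unusedVariables false
set_option linter.style.haveILetI false
set_option synthInstance.maxHeartbeats 400000

open ModularCurve Polynomial

noncomputable section

namespace Fermat.Agent.S34.ChartInfAlt.RootSmallH

open Fermat.Agent.S18.K1Defs Fermat.Agent.S18.K1Main Fermat.Agent.S30 Fermat.Agent.S30.Haupt
open Fermat.Agent.S34
open Fermat.Agent.S34.TwoPrimesRank Fermat.Agent.S34.HauptU.Plug Fermat.Agent.S34.TwoPrimesGauss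
open Fermat.Agent.S34.Modular Fermat.Agent.S34.HauptU

local notation "Qb" => AlgebraicClosure ℚ

set_option maxHeartbeats 1600000 in
/-- The nodal exit at a level-`M` coordinate `u'` with `v' = u'⁻¹`, both charts `w`-stable. -/
theorem nodalExit_of_facts (M ℓ : ℕ) [NeZero M] [NeZero ℓ] (hℓ : ℓ.Prime) (hℓM : ¬ ℓ ∣ M)
    (A : ValuationSubring Qb) (hA : A.LiesOverPrime ℓ)
    (E : IntermediateField ℚ Qb) [Normal ℚ E] [IsDiscreteValuationRing (OE A E)]
    (π : OE A E) (hπ : Irreducible π) (u' v' : LE M E)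
    (hfacts : letI := algebraOL (OE A E) E (LE M E)
      LevelMAux.ChartFacts E π u' v')
    (a : PowerSeries ℤ) (h0 : PowerSeries.coeff 0 a = 0) (h1 : PowerSeries.coeff 1 a = 1)
    (hU : (u' : LaurentSeries E) = GaussDVR.iota (OE A E) E (E2G1Aux.invO (OE A E) a))
    (hU' : (v' : LaurentSeries E) = GaussDVR.iota (OE A E) E (HauptU.E.posO (OE A E) a))
    (x₀ : LaurentSeries ℚ) (hx₀ : (v' : LaurentSeries E) = coeffEmb E x₀)
    (hwu : letI := algebraOL (OE A E) E (LE (M * ℓ) E)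
      IsIntegral (Algebra.adjoin (OE A E) {alphaHom M ℓ E u'})
        (wHom M ℓ E hℓ hℓM (alphaHom M ℓ E u')))
    (hwv : letI := algebraOL (OE A E) E (LE (M * ℓ) E)
      IsIntegral (Algebra.adjoin (OE A E) {alphaHom M ℓ E v'})
        (wHom M ℓ E hℓ hℓM (alphaHom M ℓ E v'))) :
    RootDatumH.NodalExit M ℓ hℓ hℓM A E π (heckeAlphaBar E M ℓ u') := by
  letI := algebraOL (OE A E) E (LE M E)
  haveI := isScalarTower_OL (OE A E) E (LE M E)
  letI := algebraOL (OE A E) E (LE (M * ℓ) E)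
  haveI := isScalarTower_OL (OE A E) E (LE (M * ℓ) E)
  haveI := Sat.charP_residue_OE' A E hℓ hA
  haveI := hfacts.finite
  haveI := hfacts.finite_inv
  have hex := Fermat.Agent.Lib.Frobenius.exists_isFrobeniusAt A hℓ hA
  obtain ⟨φ, hφ⟩ := hex
  have hσu : sigmaHom (M * ℓ) E (alphaHom M ℓ E u')
      = GaussDVR.iota (OE A E) E (E2G1Aux.invO (OE A E) a) := by
    rw [Sat.sigma_alpha]; exact hU
  have hσv : sigmaHom (M * ℓ) E (alphaHom M ℓ E v')
      = GaussDVR.iota (OE A E) E (HauptU.E.posO (OE A E) a) := by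
    rw [Sat.sigma_alpha]; exact hU'
  have hρ : GaussDVR.rho (OE A E) (E2G1Aux.invO (OE A E) a) ≠ 0 := fun h =>
    HauptU.E.order_rho_invO_ne_zero (O := OE A E) a (by rw [h, HahnSeries.order_zero])
  have hv : alphaHom M ℓ E v' = (alphaHom M ℓ E u')⁻¹ := by
    rw [hfacts.inv_eq, map_inv₀]
  have hfix : ∀ τ : E ≃ₐ[ℚ] E, coeffMap (τ : E →+* E) (u' : LaurentSeries E)
      = (u' : LaurentSeries E) := by
    intro τ
    have h2 : u' = v'⁻¹ := by rw [hfacts.inv_eq, inv_inv]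
    have h3 : (u' : LaurentSeries E) = (coeffEmb E x₀)⁻¹ := by
      rw [h2, ← hx₀]; rfl
    rw [h3, map_inv₀, coeffMap_coeffEmb]
  unfold RootDatumH.NodalExit
  exact ⟨Datum.nodalDatum_of_inv π hπ (alphaHom M ℓ E) (alphaHom_algebraMap M ℓ E)
      (sigmaHom (M * ℓ) E) (sigmaHom_algebraMap (M * ℓ) E) (sigmaHom_mem_fracField (M * ℓ) E A)
      (wHom M ℓ E hℓ hℓM) (wHom_algebraMap M ℓ E hℓ hℓM) ℓ (sigmaHom_wHom_alpha M ℓ E hℓ hℓM)
      (wHom_wHom M ℓ E hℓ hℓM) hℓ.two_le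
      u' (E2G1Aux.invO (OE A E) a) hσu hfacts.prime_zero
      (HauptU.E.isCoprime_order_rho_invO a ℓ) (HauptU.E.order_rho_invO_ne_zero a)
      (HauptU.E.qExpand_rho_invO ℓ hℓ a) hwu
      (hrank_modular_of_finite M ℓ E hℓ hℓM u') hρ
      v' (HauptU.E.posO (OE A E) a) hσv hfacts.prime_inf
      (HauptU.E.isCoprime_order_rho_posO a h0 h1 ℓ) (HauptU.E.order_rho_posO_ne_zero a h0 h1)
      (HauptU.E.qExpand_rho_posO ℓ hℓ a) hwv
      (hrank_modular_of_finite M ℓ E hℓ hℓM v')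
      hfacts.dedekind_zero
      (KroneckerChart.hK_redM A E ℓ hℓ hA hφ M π hπ (alphaHom M ℓ E)
        (alphaHom_algebraMap M ℓ E) (sigmaHom (M * ℓ) E) (sigmaHom_algebraMap (M * ℓ) E)
        (sigmaHom_mem_fracField (M * ℓ) E A) u' (E2G1Aux.invO (OE A E) a) hσu
        (Sat.sigma_alpha M ℓ E) hfix)
      hfacts.dedekind_inf
      (KroneckerChart.hK_redM_of_coeffEmb A E ℓ hℓ hA hφ M π hπ (alphaHom M ℓ E)
        (alphaHom_algebraMap M ℓ E) (sigmaHom (M * ℓ) E) (sigmaHom_algebraMap (M * ℓ) E)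
        (sigmaHom_mem_fracField (M * ℓ) E A) v' (HauptU.E.posO (OE A E) a) hσv
        (Sat.sigma_alpha M ℓ E) x₀ hx₀)
      hv,
    fun x hx => Datum.mem_P₁_iff π hπ (alphaHom M ℓ E) (sigmaHom (M * ℓ) E)
      (sigmaHom_algebraMap (M * ℓ) E) (sigmaHom_mem_fracField (M * ℓ) E A) u'
      (E2G1Aux.invO (OE A E) a) hσu hρ x hx,
    fun x hx => Datum.mem_P₂_iff π hπ (alphaHom M ℓ E) (sigmaHom (M * ℓ) E)
      (sigmaHom_algebraMap (M * ℓ) E) (sigmaHom_mem_fracField (M * ℓ) E A) u'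
      (E2G1Aux.invO (OE A E) a) hσu (wHom M ℓ E hℓ hℓM) (wHom_algebraMap M ℓ E hℓ hℓM) ℓ
      (sigmaHom_wHom_alpha M ℓ E hℓ hℓM) hρ x hx⟩

set_option maxHeartbeats 1600000 in
/-- The nodal exit for `ℓ = 3`, `2 ∣ M`, coordinate `α h₂`. -/
theorem nodalExit_two (M : ℕ) [NeZero M] (h3 : Nat.Prime 3) (h3M : ¬ 3 ∣ M) (h2M : 2 ∣ M)
    (A : ValuationSubring Qb) (hA : A.LiesOverPrime 3) :
    ∃ S₀ : Finset Qb, ∀ (E : IntermediateField ℚ Qb) [FiniteDimensional ℚ E] [Normal ℚ E]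
      [IsDiscreteValuationRing (OE A E)], (∀ s ∈ S₀, s ∈ E) →
      ∀ π : OE A E, Irreducible π →
        RootDatumH.NodalExit M 3 h3 h3M A E π (heckeAlphaBar E M 3 (HorizTwo.h2E M E h2M)) := by
  haveI : Fact (Nat.Prime 3) := ⟨h3⟩
  have h := LevelMAux.exists_levelM_two A M h2M h3M (by norm_num) hA
  obtain ⟨S₀, hS₀⟩ := h
  refine ⟨S₀, fun E _ _ _ hE π hπ => ?_⟩
  exact nodalExit_of_facts M 3 h3 h3M A hA E π hπ (HorizTwo.h2E M E h2M) (HorizTwo.s2E M E h2M)
    (hS₀ E hE π hπ) Two.s2Z Two.coeff_zero_s2Z Two.coeff_one_s2Z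
    (HauptU.E.coe_h2E_eq_iota M E h2M) (HauptU.E.coe_s2E_eq_iota M E h2M)
    Two.s2 (HorizTwo.coe_s2E M E h2M) (Plug.hwu_h2E M E h3 h3M h2M) (Plug.hwu_s2E M E h3 h3M h2M)

set_option maxHeartbeats 1600000 in
/-- The nodal exit for `ℓ = 2`, `3 ∣ M`, coordinate `α h₃`. -/
theorem nodalExit_three (M : ℕ) [NeZero M] (h2 : Nat.Prime 2) (h2M : ¬ 2 ∣ M) (h3M : 3 ∣ M)
    (A : ValuationSubring Qb) (hA : A.LiesOverPrime 2) :
    ∃ S₀ : Finset Qb, ∀ (E : IntermediateField ℚ Qb) [FiniteDimensional ℚ E] [Normal ℚ E]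
      [IsDiscreteValuationRing (OE A E)], (∀ s ∈ S₀, s ∈ E) →
      ∀ π : OE A E, Irreducible π →
        RootDatumH.NodalExit M 2 h2 h2M A E π (heckeAlphaBar E M 2 (HorizThree.h3E M E h3M)) := by
  haveI : Fact (Nat.Prime 2) := ⟨h2⟩
  have h := LevelMAux.exists_levelM_three A M h3M h2M (by norm_num) hA
  obtain ⟨S₀, hS₀⟩ := h
  refine ⟨S₀, fun E _ _ _ hE π hπ => ?_⟩
  exact nodalExit_of_facts M 2 h2 h2M A hA E π hπ (HorizThree.h3E M E h3M)
    (HorizThree.s3E M E h3M) (hS₀ E hE π hπ) Three.s3Z Three.coeff_zero_s3Z Three.coeff_one_s3Z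
    (HauptU.E.coe_h3E_eq_iota M E h3M) (HauptU.E.coe_s3E_eq_iota M E h3M)
    Three.s3 (HorizThree.coe_s3E M E h3M) (Plug.hwu_h3E M E h2 h2M h3M)
    (Plug.hwu_s3E M E h2 h2M h3M)

/-- **`Final.RootSmall`** (`ℓ ∈ {2, 3}`). -/
theorem rootSmall : Final.RootSmall :=
  RootDatumH.rootSmall_of_exits
    (fun M _ h3 h3M h2M A hA => nodalExit_two M h3 h3M h2M A hA)
    (fun M _ h2 h2M h3M A hA => nodalExit_three M h2 h2M h3M A hA)

end Fermat.Agent.S34.ChartInfAlt.RootSmallH
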